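import Fermat.Agent.Galois.Carayol36.NotUnipotent

/-!
# S36 from the vanishing statement and the congruence relation
-/

set_option autoImplicit false

noncomputable section

open ModularCurve Polynomial CongruenceSubgroup

namespace FermatLib.Galois.Carayol36

/-- The conclusion of S36, from `VanishingAll` and the congruence relation. -/
theorem exists_rep_not_unipotent (hvan : VanishingAll)
    (hS37 : ∀ (N p : ℕ) [NeZero N], p.Prime → Attach.SpecializationInput N p)
    {M : ℕ} [NeZero M] {g : CuspForm (Gamma0 M) 2} (hg : g.IsNewform)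
    (lam : ℕ) [Fact lam.Prime]
    (S : Finset ℕ)
    (O' : Type) [CommRing O'] [IsDomain O'] [IsDiscreteValuationRing O']
    [IsAdicComplete (IsLocalRing.maximalIdeal O') O'] [Finite (IsLocalRing.ResidueField O')]
    [CharZero O'] (hlamO' : (lam : O') ∈ IsLocalRing.maximalIdeal O')
    (chig : CuspForm.heckeAlgebra M 2 (↑S : Set ℕ) →+* ℂ)
    (hchig : ∀ (ℓ : ℕ) (hℓ : ℓ.Prime) (hℓM : ¬ ℓ ∣ M) (hℓS : ℓ ∉ (↑S : Set ℕ)),
      chig (CuspForm.heckeAlgebra.T hℓ hℓM hℓS) = ModularFormClass.qCoeff g ℓ)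
    (iota : chig.range →+* O')
    (hlamS : lam ∈ S) (hMS : ∀ q : ℕ, q.Prime → q ∣ M → q ∈ S) :
    ∃ (O'' : Type) (_ : CommRing O'') (_ : IsDomain O'') (_ : IsDiscreteValuationRing O'')
      (_ : IsAdicComplete (IsLocalRing.maximalIdeal O'') O'') (_ : Finite (IsLocalRing.ResidueField O''))
      (_ : CharZero O'') (_ : Algebra O' O'') (_ : Module.Finite O' O'') (_ : IsLocalHom (algebraMap O' O'')),
      Function.Injective (algebraMap O' O'') ∧
      ∃ ρ : GaloisRepAdic O'',
        (∀ (ℓ : ℕ) (hℓ : ℓ.Prime) (hℓM : ¬ ℓ ∣ M) (hℓS : ℓ ∉ (↑S : Set ℕ)),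
          ∀ A : ValuationSubring (AlgebraicClosure ℚ), A.LiesOverPrime ℓ →
            ∀ σ : AlgebraicClosure ℚ ≃ₐ[ℚ] AlgebraicClosure ℚ, A.IsFrobeniusAt σ ℓ →
              LinearMap.charpoly (ρ.ρ σ) =
                X ^ 2 - C (algebraMap O' O'' ((iota.comp chig.rangeRestrict) (CuspForm.heckeAlgebra.T hℓ hℓM hℓS))) * X
                  + C ((ℓ : O''))) ∧
        (∀ q : ℕ, q.Prime → q ≠ lam → M.factorization q = 2 → ¬ ρ.IsUnipotentOnInertiaAt q) := by
  obtain ⟨O'', _, _, _, _, _, _, _, _, hloc, hinj, ρ, hρ, -⟩ :=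
    Attach.padicAttachment_of_equiv (fun N p _ hp => kummerHeckeEquiv N p hp) hS37 lam M S hlamS hMS
      O' hlamO' (iota.comp chig.rangeRestrict)
  refine ⟨O'', inferInstance, inferInstance, inferInstance, inferInstance, inferInstance,
    inferInstance, inferInstance, inferInstance, hloc, hinj, ρ, hρ, fun q hq hqlam hqM => ?_⟩
  have hlamO'' : (lam : O'') ∈ IsLocalRing.maximalIdeal O'' := by
    rw [← map_natCast (algebraMap O' O'')]
    exact map_nonunit (algebraMap O' O'') _ hlamO'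
  exact not_isUnipotentOnInertiaAt_of_vanishing hvan hg lam (hS37 M lam Fact.out) S hlamS hMS O''
    hlamO'' chig hchig ((algebraMap O' O'').comp iota) ρ hρ q hq hqlam hqM

end FermatLib.Galois.Carayol36
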