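import Mathlib

/-!
# Norms along a square of extensions of prime degree

* `map_norm_of_prime_degree`: norms commute with a map of degree-`p` extensions which does not
  collapse.
* `norm_mem_of_forall_mem`: the norm of an element lying in every valuation ring over the
  constants lies in every valuation ring over the constants.
-/

set_option autoImplicit false
set_option linter.style.haveILetI false

noncomputable section

open Module

namespace FermatLib.Galois.Carayol36

theorem natDegree_minpoly_of_prime {F E : Type*} [Field F] [Field E] [Algebra F E] {p : ℕ}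
    (hp : p.Prime) (hE : finrank F E = p) {θ : E} (hθ : θ ∉ Set.range (algebraMap F E)) :
    (minpoly F θ).natDegree = p := by
  haveI : FiniteDimensional F E := Module.finite_of_finrank_pos (by rw [hE]; exact hp.pos)
  have hint : IsIntegral F θ := IsIntegral.of_finite F θ
  have hdvd : (minpoly F θ).natDegree ∣ p := by
    rw [← IntermediateField.adjoin.finrank hint, ← hE]
    exact ⟨_, (Module.finrank_mul_finrank F (IntermediateField.adjoin F ({θ} : Set E)) E).symm⟩
  exact (hp.eq_one_or_self_of_dvd _ hdvd).resolve_left fun h =>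
    hθ (minpoly.natDegree_eq_one_iff.mp h)

theorem map_norm_of_prime_degree {F E F' E' : Type*} [Field F] [Field E] [Field F'] [Field E']
    [Algebra F E] [Algebra F' E'] (i : F →+* F') (j : E →+* E')
    (hc : ∀ x, j (algebraMap F E x) = algebraMap F' E' (i x)) {p : ℕ} (hp : p.Prime)
    (hE : finrank F E = p) (hE' : finrank F' E' = p) {θ : E}
    (hθ : j θ ∉ Set.range (algebraMap F' E')) (f : E) :
    i (Algebra.norm F f) = Algebra.norm F' (j f) := by
  classical
  haveI : Nonempty (Fin p) := ⟨⟨0, hp.pos⟩⟩
  have hθ₀ : θ ∉ Set.range (algebraMap F E) := by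
    rintro ⟨x, rfl⟩
    exact hθ ⟨i x, (hc x).symm⟩
  have h₀ : LinearIndependent F fun k : Fin p => θ ^ (k : ℕ) :=
    natDegree_minpoly_of_prime hp hE hθ₀ ▸ linearIndependent_pow (K := F) θ
  have h₁ : LinearIndependent F' fun k : Fin p => j θ ^ (k : ℕ) :=
    natDegree_minpoly_of_prime hp hE' hθ ▸ linearIndependent_pow (K := F') (j θ)
  set b := basisOfLinearIndependentOfCardEqFinrank h₀ (by rw [Fintype.card_fin, hE]) with hb
  set b' := basisOfLinearIndependentOfCardEqFinrank h₁ (by rw [Fintype.card_fin, hE']) with hb'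
  have hbb : ∀ k, j (b k) = b' k := fun k => by
    rw [hb, hb', coe_basisOfLinearIndependentOfCardEqFinrank,
      coe_basisOfLinearIndependentOfCardEqFinrank, map_pow]
  rw [Algebra.norm_eq_matrix_det b f, Algebra.norm_eq_matrix_det b' (j f), RingHom.map_det]
  congr 1
  ext k l
  rw [RingHom.mapMatrix_apply, Matrix.map_apply, Algebra.leftMulMatrix_eq_repr_mul,
    Algebra.leftMulMatrix_eq_repr_mul]
  have h : j f * b' l = ∑ m, i (b.repr (f * b l) m) • b' m := by
    rw [← hbb, ← map_mul]
    conv_lhs => rw [← b.sum_repr (f * b l)]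
    rw [map_sum]
    refine Finset.sum_congr rfl fun m _ => ?_
    rw [Algebra.smul_def, map_mul, hc, hbb, Algebra.smul_def]
  rw [h, b'.repr_sum_self]

theorem norm_mem_of_forall_mem {k F E : Type*} [Field k] [Field F] [Field E] [Algebra k F]
    [Algebra k E] [Algebra F E] [IsScalarTower k F E] {z : E}
    (h : ∀ V : ValuationSubring E, (∀ c : k, algebraMap k E c ∈ V) → z ∈ V)
    (V : ValuationSubring F) (hV : ∀ c : k, algebraMap k F c ∈ V) : Algebra.norm F z ∈ V := by
  have hz : IsIntegral k z := by
    have hmem : z ∈ (integralClosure (Subring.closure (Set.range (algebraMap k E))) E).toSubring := by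
      rw [← iInf_valuationSubring_superset, Subring.mem_iInf]
      exact fun W => h W.1 fun c => W.2 ⟨c, rfl⟩
    obtain ⟨P, hP, hPz⟩ : IsIntegral (Subring.closure (Set.range (algebraMap k E))) z := hmem
    let g : k →+* Subring.closure (Set.range (algebraMap k E)) :=
      (algebraMap k E).codRestrict _ fun c => Subring.subset_closure ⟨c, rfl⟩
    have hg : Function.Surjective g := fun x => by
      have hx : (x : E) ∈ (algebraMap k E).range :=
        Subring.closure_le.mpr (fun y hy => hy) x.2
      obtain ⟨c, hc⟩ := hx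
      exact ⟨c, Subtype.ext hc⟩
    obtain ⟨Q, hQP, -, hQ⟩ := Polynomial.lifts_and_natDegree_eq_and_monic
      ((Polynomial.mem_lifts _).mpr (Polynomial.map_surjective g hg P)) hP
    refine ⟨Q, hQ, ?_⟩
    rw [← hPz, ← hQP, Polynomial.eval₂_map]
    rfl
  obtain ⟨Q, hQ, hQz⟩ := Algebra.isIntegral_norm F hz
  let φ : k →+* V := (algebraMap k F).codRestrict _ hV
  have hint : IsIntegral V (Algebra.norm F z) := by
    refine ⟨Q.map φ, hQ.map φ, ?_⟩
    rw [← hQz, Polynomial.eval₂_map]
    rfl
  obtain ⟨y, hy⟩ := IsIntegrallyClosed.isIntegral_iff.mp hint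
  exact hy ▸ y.2

end FermatLib.Galois.Carayol36
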