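import Fermat.Agent.Galois.Carayol36.Bridge
import Fermat.Agent.Galois.Carayol36.AuxNorm

/-!
# Lowering the main statement along an auxiliary level

The main statement at level `N r` with exponent `C` gives it at level `N` with exponent `C d`,
`d` the degree of `X₀(N r q²) → X₀(N q²)`.
-/

set_option autoImplicit false
set_option synthInstance.maxHeartbeats 400000
set_option maxHeartbeats 1000000
set_option linter.style.haveILetI false

noncomputable section

open ModularCurve AlgebraicCurve
open FermatLib.Modular.Corr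

namespace FermatLib.Galois.Carayol36

local notation "Qbar" => AlgebraicClosure ℚ

variable {K : IntermediateField ℚ Qbar}

/-- The norm condition pulls back along a level change not collapsing the fibre degree `p`. -/
theorem IsNormPowOver.up {M M' M₁ M₁' : ℕ} [NeZero M] [NeZero M'] [NeZero M₁] [NeZero M₁']
    {d : ℕ} [NeZero d] (h : M * d ∣ M') (hh : M₁ * d ∣ M₁') (hi : M ∣ M₁) (hj : M' ∣ M₁')
    {p : ℕ} (hp : p.Prime) (hdeg : finrankAlong K (barBeta K d h) = p)
    (hdeg₁ : finrankAlong K (barBeta K d hh) = p) {θ : fieldBar K M'}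
    (hθ : ∀ z : fieldBar K M₁, qExpand K d (z : LaurentSeries K) ≠ (θ : LaurentSeries K))
    {m : ℕ} {f : fieldBar K M'} (hn : IsNormPowOver K d h m f) :
    IsNormPowOver K d hh m (barIncl K hj f) := by
  letI := (barBeta K d h).toRingHom.toAlgebra
  letI := (barBeta K d hh).toRingHom.toAlgebra
  obtain ⟨γ, G, hG⟩ := hn
  refine ⟨γ, barIncl K hi G, ?_⟩
  have hnorm := map_norm_of_prime_degree (barIncl K hi).toRingHom (barIncl K hj).toRingHom
    (fun x => Subtype.ext (by
      show ((barIncl K hj (barBeta K d h x)) : LaurentSeries K) =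
        (barBeta K d hh (barIncl K hi x) : LaurentSeries K)
      rw [coe_barIncl, coe_barBeta, coe_barBeta, coe_barIncl]))
    hp hdeg hdeg₁ (θ := θ) (by
      rintro ⟨z, hz⟩
      refine hθ z ?_
      have := congrArg (fun w : fieldBar K M₁' => (w : LaurentSeries K)) hz
      exact ((coe_barBeta d hh z).symm.trans this).trans (coe_barIncl hj θ)) f
  refine hnorm.symm.trans ?_
  show barIncl K hi (Algebra.norm (fieldBar K M) f) = _
  rw [hG, map_mul, map_pow, AlgHom.commutes]

/-- Being locally an `m`-th power pulls back. -/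
theorem IsLocPowOver.up {M M' : ℕ} [NeZero M] [NeZero M'] (h : M ∣ M') {m : ℕ} {f : fieldBar K M}
    (hloc : IsLocPowOver K m f) : IsLocPowOver K m (barIncl K h f) := by
  intro V _ hK
  by_cases hW : V.comap (barIncl K h).toRingHom = ⊤
  · refine ⟨1, one_ne_zero, ?_, ?_⟩
    · have : (1 : fieldBar K M) / f ∈ V.comap (barIncl K h).toRingHom := hW ▸ trivial
      rw [ValuationSubring.mem_comap] at this
      simpa using this
    · have : f ∈ V.comap (barIncl K h).toRingHom := hW ▸ trivial
      rw [ValuationSubring.mem_comap] at this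
      simpa using this
  · obtain ⟨a, ha, h1, h2⟩ := hloc _ hW (fun c => by
      rw [ValuationSubring.mem_comap]
      simpa using hK c)
    rw [ValuationSubring.mem_comap] at h1 h2
    exact ⟨barIncl K h a, (map_ne_zero_iff _ (barIncl K h).injective).mpr ha,
      by simpa using h1, by simpa using h2⟩

/-- **Lowering the level.** -/
theorem mainOver_of_auxLevel (N q r C : ℕ) [NeZero N] [NeZero q] [NeZero r] (hq : q.Prime)
    (hdeg : ∀ (h₁ : N * q * 1 ∣ N * q * q) (h₂ : N * q * q ∣ N * q * q),
      finrankAlong K (barBeta K 1 h₁) = q ∧ finrankAlong K (barBeta K q h₂) = q)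
    (hdeg' : ∀ (h₁ : N * r * q * 1 ∣ N * r * q * q) (h₂ : N * r * q * q ∣ N * r * q * q),
      finrankAlong K (barBeta K 1 h₁) = q ∧ finrankAlong K (barBeta K q h₂) = q)
    (hmid : ∀ z : fieldBar K (N * r * q),
      (z : LaurentSeries K) ≠ coeffEmb K (qExpand ℚ (q * q) jq))
    (hmain : MainOver K (N * r) q C) :
    MainOver K N q
      (C * finrankAlong K (barIncl K (M := N * q * q) (M' := N * r * q * q)
        (mul_dvd_mul_right (mul_dvd_mul_right (dvd_mul_right N r) q) q))) := by
  intro h₁ h₂ m hm f hf hloc hn₁ hn₂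
  set hj : N * q * q ∣ N * r * q * q :=
    mul_dvd_mul_right (mul_dvd_mul_right (dvd_mul_right N r) q) q with hjdef
  have hi : N * q ∣ N * r * q := mul_dvd_mul_right (dvd_mul_right N r) q
  have h₁' : N * r * q * 1 ∣ N * r * q * q := mul_dvd_mul_left _ (one_dvd q)
  have h₂' : N * r * q * q ∣ N * r * q * q := dvd_rfl
  have hsq : q * q ∣ N * q * q := ⟨N, by ring⟩
  obtain ⟨a', ha', haV⟩ := hmain h₁' h₂' m hm (barIncl K hj f)
    ((map_ne_zero_iff _ (barIncl K hj).injective).mpr hf) (hloc.up hj)
    (hn₁.up h₁ h₁' hi hj hq (hdeg h₁ h₂).1 (hdeg' h₁' h₂').1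
      (θ := ⟨coeffEmb K (qExpand ℚ (q * q) jq),
        coeffEmb_mem_laurentBaseChange K (jqd_mem_full _ hsq)⟩)
      (fun z hz => hmid z (by rwa [qExpand_one_apply] at hz)))
    (hn₂.up h₂ h₂' hi hj hq (hdeg h₁ h₂).2 (hdeg' h₁' h₂').2
      (θ := FermatLib.Modular.jElem K (N * q * q)) (fun z hz => by
        have h := congrArg (fun s : LaurentSeries K => s.coeff (-1)) hz
        rw [qExpand_coeff_of_not_dvd q _ (fun hd => hq.one_lt.ne'
            (Nat.dvd_one.mp (Int.natCast_dvd_natCast.mp (by simpa using hd)))),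
          FermatLib.Modular.coe_jElem, ← jqModC_rat, coeffEmb, coeffMap_jqModC,
          ModularCurve.coeff_jqModC_neg_one] at h
        exact zero_ne_one h))
  letI := (barIncl K hj).toRingHom.toAlgebra
  haveI : IsScalarTower K (fieldBar K (N * q * q)) (fieldBar K (N * r * q * q)) :=
    IsScalarTower.of_algebraMap_eq fun c => ((barIncl K hj).commutes c).symm
  haveI : Module.Finite (fieldBar K (N * q * q)) (fieldBar K (N * r * q * q)) :=
    finiteAlong_barIncl (levelFacts K) hj
  refine ⟨Algebra.norm (fieldBar K (N * q * q)) a', Algebra.norm_ne_zero_iff.mpr ha',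
    fun V hV => ?_⟩
  have hf' : barIncl K hj f ≠ 0 := (map_ne_zero_iff _ (barIncl K hj).injective).mpr hf
  have hmem := norm_mem_of_forall_mem (k := K) (z := a' ^ m / (barIncl K hj f) ^ C) haV V hV
  have he : Algebra.norm (fieldBar K (N * q * q)) (barIncl K hj f) =
      f ^ finrankAlong K (barIncl K hj) := Algebra.norm_algebraMap f
  have hdiv : Algebra.norm (fieldBar K (N * q * q)) (a' ^ m / (barIncl K hj f) ^ C) =
      Algebra.norm (fieldBar K (N * q * q)) a' ^ m / f ^ (C * finrankAlong K (barIncl K hj)) := by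
    rw [eq_div_iff (pow_ne_zero _ hf), pow_mul', ← he, ← map_pow (Algebra.norm _),
      ← map_pow (Algebra.norm _), ← map_mul,
      div_mul_cancel₀ _ (pow_ne_zero _ hf')]
  rw [hdiv] at hmem
  exact hmem

end FermatLib.Galois.Carayol36
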