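import Fermat.Agent.Galois.MazurP.InstanceDescent
import Fermat.Agent.Curve.Descent.LaurentExt
import Fermat.Agent.Modular.CoeffDescent
import Fermat.Agent.Modular.CorrFacts
import Fermat.Agent.Curve.PlaceConstruction
import Fermat.Agent.Curve.PlaceExtras
import Fermat.Agent.Galois.MazurP.InertiaField
import Fermat.Agent.MLT.Odd.TamePair
import Fermat.Agent.Igusa.Carayol.LevelUnramified

/-!
# The fields of `X₀(M)` over an algebraic extension `K` of `ℚ`

The embedding of the field over `K` into the field over `ℚ̄`, its image, the degeneracy maps, and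
valuations of the field over `K` as restrictions of places.
-/

set_option autoImplicit false
set_option synthInstance.maxHeartbeats 400000
set_option linter.style.haveILetI false

noncomputable section

open ModularCurve AlgebraicCurve
open FermatLib.Modular.Corr

namespace FermatLib.Galois.Carayol36

local notation "Qbar" => AlgebraicClosure ℚ

variable (K : IntermediateField ℚ Qbar) (M : ℕ)

/-- The embedding of the function field over `K` in the one over `ℚ̄`. -/
def kEmb : fieldBar K M →+* fieldBar Qbar M :=
  Curve.baseChangeMap K Qbar (modularFunctionFieldFull M)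

@[simp] theorem coe_kEmb (f : fieldBar K M) :
    (kEmb K M f : LaurentSeries Qbar) = coeffMap (algebraMap K Qbar) (f : LaurentSeries K) :=
  rfl

theorem isConstantExtension_kEmb : Curve.IsConstantExtension K Qbar (kEmb K M) :=
  Curve.isConstantExtension_baseChangeMap K Qbar _

theorem kEmb_algebraMap (c : K) :
    kEmb K M (algebraMap K (fieldBar K M) c) = algebraMap Qbar (fieldBar Qbar M) (c : Qbar) :=
  (isConstantExtension_kEmb K M).commutes c

variable {K M}

/-- Fixed functions are defined over `K`. -/
theorem exists_kEmb_eq {f : fieldBar Qbar M} (hf : f ∈ MazurP.ratFunctions M K) :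
    ∃ g, kEmb K M g = f := by
  set x : LaurentSeries K :=
    { coeff := fun i => ⟨(f : LaurentSeries Qbar).coeff i, MazurP.coeff_mem_of_mem_ratFunctions hf i⟩
      isPWO_support' := (f : LaurentSeries Qbar).isPWO_support.mono fun i hi => by
        rw [HahnSeries.mem_support]
        intro h
        exact hi (Subtype.ext h) }
  have hx : coeffMap (algebraMap K Qbar) x = (f : LaurentSeries Qbar) :=
    HahnSeries.ext (funext fun i => by rw [coeffMap_coeff]; rfl)
  have hmem : x ∈ fieldBar K M := Modular.mem_of_coeffMap_mem_adjoin (L := Qbar) (by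
    rw [← Curve.laurentBaseChange_eq_adjoin K Qbar, hx]
    exact f.2)
  exact ⟨⟨x, hmem⟩, Subtype.ext hx⟩

variable [NeZero M] {M' : ℕ} [NeZero M'] (K)

theorem kEmb_barBeta (d : ℕ) [NeZero d] (h : M * d ∣ M') (f : fieldBar K M) :
    kEmb K M' (barBeta K d h f) = barBeta Qbar d h (kEmb K M f) :=
  Subtype.ext (by rw [coe_kEmb, coe_barBeta, coe_barBeta, coe_kEmb, coeffMap_qExpand])

variable {K}

/-- A proper valuation subring of the field over `K` containing `K` is the restriction of a
place. -/
theorem exists_place_comap (V : ValuationSubring (fieldBar K M)) (hV : V ≠ ⊤)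
    (hK : ∀ c : K, algebraMap K (fieldBar K M) c ∈ V) :
    ∃ w : Place Qbar (fieldBar Qbar M), w.toValuationSubring.comap (kEmb K M) = V := by
  haveI := isFunctionFieldOne_fieldBar Qbar M
  obtain ⟨W, hW⟩ := Igusa.Carayol.exists_valuationSubring_extension (kEmb K M) V
  have hWK : ∀ a : Qbar, algebraMap Qbar (fieldBar Qbar M) a ∈ W := by
    intro a
    haveI : Algebra.IsAlgebraic ℚ Qbar := AlgebraicClosure.isAlgebraic ℚ
    have hK' : ∀ c : K, algebraMap Qbar (fieldBar Qbar M) (c : Qbar) ∈ W := fun c => by
      rw [← kEmb_algebraMap, ← ValuationSubring.mem_comap, hW]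
      exact hK c
    let φ : K →+* W :=
      ((algebraMap Qbar (fieldBar Qbar M)).comp (algebraMap K Qbar)).codRestrict W.toSubring hK'
    obtain ⟨P, hP, hPa⟩ : IsIntegral K a :=
      ((AlgebraicClosure.isAlgebraic ℚ).isAlgebraic a).isIntegral.tower_top
    have hint : IsIntegral W (algebraMap Qbar (fieldBar Qbar M) a) := by
      refine ⟨P.map φ, hP.map φ, ?_⟩
      rw [Polynomial.eval₂_map]
      show Polynomial.eval₂ ((algebraMap Qbar (fieldBar Qbar M)).comp (algebraMap K Qbar))
        (algebraMap Qbar (fieldBar Qbar M) a) P = 0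
      rw [← Polynomial.hom_eval₂, hPa, map_zero]
    obtain ⟨y, hy⟩ := IsIntegrallyClosed.isIntegral_iff.mp hint
    exact (hy ▸ y.2 : algebraMap Qbar (fieldBar Qbar M) a ∈ W)
  have hWtop : W ≠ ⊤ := fun h => hV (by
    refine SetLike.ext fun f => ⟨fun _ => ValuationSubring.mem_top f, fun _ => ?_⟩
    rw [← hW, ValuationSubring.mem_comap, h]
    exact ValuationSubring.mem_top _)
  exact ⟨Curve.placeOfValuationSubring W hWK hWtop, hW⟩

/-- The fixing subgroup of the inertia field is inertia. -/
theorem fixingSubgroup_inertiaField (A : ValuationSubring Qbar) :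
    (MazurP.inertiaField A).fixingSubgroup = A.inertiaSubgroupIn ℚ := by
  haveI := MazurP.isGalois_algebraicClosureRat
  exact InfiniteGalois.fixingSubgroup_fixedField
    (⟨A.inertiaSubgroupIn ℚ, MLT.Odd.isClosed_inertiaSubgroupIn A⟩ :
      ClosedSubgroup (Qbar ≃ₐ[ℚ] Qbar))

end FermatLib.Galois.Carayol36
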