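import Fermat.Agent.Curve.Descent.ConstExt
import Mathlib.RingTheory.Norm.Defs
import Mathlib.LinearAlgebra.Matrix.ToLin
import Mathlib.RingTheory.AlgebraTower

/-!
# The norm commutes with extensions of the constant field

For finite extensions `φ : F → F'` over `K` and `ψ : E → E'` over `L` compatible with constant
extensions `F → E`, `F' → E'`, a basis of `F'` over `F` gives one of `E'` over `E`.
-/

set_option autoImplicit false
set_option linter.style.haveILetI false

noncomputable section

namespace FermatLib.Galois.Carayol36

open FermatLib.Curve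

variable {K L : Type*} [Field K] [Field L] [Algebra K L] {F F' E E' : Type*}
  [Field F] [Field F'] [Field E] [Field E'] [Algebra K F] [Algebra K F'] [Algebra L E]
  [Algebra L E'] {i : F →+* E} {i' : F' →+* E'}

/-- Independent elements over `F` stay independent over `E`. -/
theorem linearIndependent_along (h : IsConstantExtension K L i) (h' : IsConstantExtension K L i')
    [Algebra F F'] [Algebra E E'] [IsScalarTower K F F'] [IsScalarTower L E E']
    (hcomm : ∀ f, i' (algebraMap F F' f) = algebraMap E E' (i f))
    {n : ℕ} {b : Fin n → F'} (hb : LinearIndependent F b) :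
    LinearIndependent E fun j => i' (b j) := by
  classical
  rw [Fintype.linearIndependent_iff]
  intro e he j
  obtain ⟨r, f, hf, d, hd, hc⟩ := h.exists_frame (Finset.univ.image e)
  choose c hc using fun j => hc (e j) (Finset.mem_image_of_mem e (Finset.mem_univ j))
  have hli := h'.linearIndependent_map (linearIndependent_smul hf hb)
  rw [Fintype.linearIndependent_iff] at hli
  have key : ∑ p : Fin r × Fin n, c p.2 p.1 • i' (f p.1 • b p.2) = 0 := by
    rw [Fintype.sum_prod_type_right]
    refine Eq.trans ?_ (smul_eq_zero_of_right (∑ j, d j • i (f j)) he)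
    rw [Finset.smul_sum]
    refine Finset.sum_congr rfl fun j _ => ?_
    rw [smul_smul, mul_comm, hc j, Finset.sum_smul]
    refine Finset.sum_congr rfl fun k _ => ?_
    rw [smul_assoc, Algebra.smul_def (f k), map_mul, hcomm, ← Algebra.smul_def (i (f k))]
  have hj : ∀ k, c j k = 0 := fun k => hli (fun p => c p.2 p.1) key (k, j)
  have h0 := hc j
  simp only [hj, zero_smul, Finset.sum_const_zero] at h0
  exact (mul_eq_zero.mp h0).resolve_right hd

/-- A basis of `F'` over `F` spans `E'` over `E`. -/
theorem span_along_eq_top (h' : IsConstantExtension K L i')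
    [Algebra F F'] [Algebra E E'] [IsScalarTower L E E']
    (hcomm : ∀ f, i' (algebraMap F F' f) = algebraMap E E' (i f))
    {n : ℕ} (b : Module.Basis (Fin n) F F') :
    Submodule.span E (Set.range fun j => i' (b j)) = ⊤ := by
  set S := Submodule.span E (Set.range fun j => i' (b j))
  have hS : ∀ f : F', i' f ∈ S := fun f => by
    rw [← b.sum_repr f, map_sum]
    refine Submodule.sum_mem _ fun j _ => ?_
    rw [Algebra.smul_def, map_mul, hcomm, ← Algebra.smul_def]
    exact Submodule.smul_mem _ _ (Submodule.subset_span ⟨j, rfl⟩)
  let A : Subalgebra E E' := Algebra.adjoin E (Set.range i')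
  have hA : Subalgebra.toSubmodule A ≤ S := by
    rw [Algebra.adjoin_eq_span_of_subset]
    · exact Submodule.span_le.mpr (by rintro _ ⟨f, rfl⟩; exact hS f)
    · exact fun y hy => Submodule.subset_span
        ((Submonoid.closure_le (S := MonoidHom.mrange (i' : F' →* E'))).mpr (fun z hz => hz) hy)
  haveI : FiniteDimensional E S := FiniteDimensional.span_of_finite E (Set.finite_range _)
  haveI : FiniteDimensional E A := Submodule.finiteDimensional_of_le hA
  refine eq_top_iff.mpr fun e _ => hA ?_
  show e ∈ A
  clear ‹e ∈ (⊤ : Submodule E E')›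
  have he : e ∈ IntermediateField.adjoin L (Set.range i') := h'.adjoin_eq_top ▸ trivial
  induction he using IntermediateField.adjoin_induction with
  | mem y hy => exact Algebra.subset_adjoin hy
  | algebraMap a =>
    rw [IsScalarTower.algebraMap_apply L E E']
    exact A.algebraMap_mem _
  | add y z _ _ hy hz => exact add_mem hy hz
  | mul y z _ _ hy hz => exact mul_mem hy hz
  | inv y _ hy =>
    exact Subalgebra.inv_mem_of_algebraic A (x := ⟨y, hy⟩)
      ((Algebra.IsAlgebraic.isAlgebraic (R := E) (⟨y, hy⟩ : A)).algHom A.val)

/-- **The norm commutes with extensions of the constant field.** -/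
theorem map_norm_of_isConstantExtension (h : IsConstantExtension K L i)
    (h' : IsConstantExtension K L i') (φ : F →ₐ[K] F') (ψ : E →ₐ[L] E')
    (hcomm : ∀ f, i' (φ f) = ψ (i f))
    (hφ : letI := φ.toRingHom.toAlgebra; Module.Finite F F') (z : F') :
    i (letI := φ.toRingHom.toAlgebra; Algebra.norm F z) =
      (letI := ψ.toRingHom.toAlgebra; Algebra.norm E (i' z)) := by
  classical
  letI := φ.toRingHom.toAlgebra
  letI := ψ.toRingHom.toAlgebra
  haveI : IsScalarTower K F F' := IsScalarTower.of_algebraMap_eq fun c => (φ.commutes c).symm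
  haveI : IsScalarTower L E E' := IsScalarTower.of_algebraMap_eq fun c => (ψ.commutes c).symm
  haveI := hφ
  have hc : ∀ f, i' (algebraMap F F' f) = algebraMap E E' (i f) := hcomm
  let b := Module.finBasis F F'
  let b' : Module.Basis (Fin (Module.finrank F F')) E E' :=
    Module.Basis.mk (linearIndependent_along h h' hc b.linearIndependent)
      (span_along_eq_top h' hc b).ge
  have hb' : ∀ j, b' j = i' (b j) := fun j => Module.Basis.mk_apply _ _ j
  rw [Algebra.norm_eq_matrix_det b, Algebra.norm_eq_matrix_det b', RingHom.map_det]
  congr 1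
  refine Matrix.ext fun r s => ?_
  rw [RingHom.mapMatrix_apply, Matrix.map_apply, Algebra.leftMulMatrix_eq_repr_mul,
    Algebra.leftMulMatrix_eq_repr_mul, hb', ← map_mul]
  have hsum : i' (z * b s) = ∑ k, i (b.repr (z * b s) k) • b' k := by
    conv_lhs => rw [← b.sum_repr (z * b s)]
    rw [map_sum]
    exact Finset.sum_congr rfl fun k _ => by
      rw [Algebra.smul_def, map_mul, hc, hb', ← Algebra.smul_def]
  rw [hsum, Module.Basis.repr_sum_self]

end FermatLib.Galois.Carayol36
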