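import Fermat.Agent.Galois.Carayol36.Statement
import Fermat.Agent.Galois.Carayol36.KForms
import Fermat.Agent.Galois.Carayol36.NormDescent
import Fermat.Agent.Igusa.GenusCompare

/-!
# From the main statement over the inertia field to the vanishing on the Jacobian

An inertia-fixed class killed by `m` gives a function over the inertia field which is locally an
`m`-th power; if both push-forwards of the class vanish, both norms of the function are constants
times `m`-th powers.
-/

set_option autoImplicit false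
set_option synthInstance.maxHeartbeats 400000
set_option maxHeartbeats 1000000
set_option linter.style.haveILetI false

noncomputable section

open ModularCurve AlgebraicCurve
open FermatLib.Modular.Corr

namespace FermatLib.Galois.Carayol36

local notation "Qbar" => AlgebraicClosure ℚ
local notation "Γℚ" => (AlgebraicClosure ℚ ≃ₐ[ℚ] AlgebraicClosure ℚ)

section Statements

variable (K : IntermediateField ℚ Qbar)

/-- `f` is, at every valuation trivial on `K`, an `m`-th power up to units. -/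
def IsLocPowOver {M : ℕ} (m : ℕ) (f : fieldBar K M) : Prop :=
  ∀ V : ValuationSubring (fieldBar K M), V ≠ ⊤ →
    (∀ c : K, algebraMap K (fieldBar K M) c ∈ V) →
      ∃ a : fieldBar K M, a ≠ 0 ∧ a ^ m / f ∈ V ∧ (a ^ m / f)⁻¹ ∈ V

/-- The norm of `f` along `f(τ) ↦ f(dτ)` is a constant times an `m`-th power. -/
def IsNormPowOver {M M' : ℕ} [NeZero M] [NeZero M'] (d : ℕ) [NeZero d] (h : M * d ∣ M') (m : ℕ)
    (f : fieldBar K M') : Prop :=
  letI := (barBeta K d h).toRingHom.toAlgebra
  ∃ (γ : K) (G : fieldBar K M),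
    Algebra.norm (fieldBar K M) f = algebraMap K (fieldBar K M) γ * G ^ m

/-- The main statement on `X₀(N q²) → X₀(N q)` over `K`, with exponent `C`. -/
def MainOver (N q C : ℕ) [NeZero N] [NeZero q] : Prop :=
  ∀ (h₁ : N * q * 1 ∣ N * q * q) (h₂ : N * q * q ∣ N * q * q) (m : ℕ), ¬ q ∣ m →
    ∀ f : fieldBar K (N * q * q), f ≠ 0 → IsLocPowOver K m f →
      IsNormPowOver K 1 h₁ m f → IsNormPowOver K q h₂ m f →
        ∃ a : fieldBar K (N * q * q), a ≠ 0 ∧ ∀ V : ValuationSubring (fieldBar K (N * q * q)),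
          (∀ c : K, algebraMap K (fieldBar K (N * q * q)) c ∈ V) →
            a ^ m / f ^ C ∈ V

end Statements

/-- The main statement over every inertia field at `q`. -/
def MainOverAll (N q C : ℕ) [NeZero N] [NeZero q] : Prop :=
  ∀ A : ValuationSubring Qbar, A.LiesOverPrime q → MainOver (MazurP.inertiaField A) N q C

section

variable {M : ℕ} [NeZero M] {K : IntermediateField ℚ Qbar} {g : ℕ}
  (hF : Igusa.RRField Qbar (fieldBar Qbar M) g)

local notation "𝔤" => arithmeticGalois (modularFunctionFieldFull M)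

include hF in
/-- A fixed divisor of large degree is attained at a given place by a function over `K`. -/
theorem exists_kEmb_ord_eq_of_large {E : Divisor Qbar (fieldBar Qbar M)}
    (hE : ∀ σ ∈ K.fixingSubgroup, 𝔤 σ • E = E)
    (hdeg : 2 * (g : ℤ) ≤ Divisor.degree E) (w : Place Qbar (fieldBar Qbar M)) :
    ∃ u : fieldBar K M, u ≠ 0 ∧ w.ord (kEmb K M u) = -E w := by
  classical
  have hdeg' : Divisor.degree (E - Finsupp.single w 1) = Divisor.degree E - 1 := by
    rw [map_sub, Divisor.degree_single, hF.deg_one, Nat.cast_one, mul_one]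
  obtain ⟨u, ⟨hu, hurat⟩, hu'⟩ : ∃ u : fieldBar Qbar M,
      (u ∈ riemannRochSpace E ∧ u ∈ MazurP.ratFunctions M K) ∧
        u ∉ riemannRochSpace (E - Finsupp.single w 1) := by
    by_contra hcon
    push Not at hcon
    have hle : riemannRochSpace E ≤ riemannRochSpace (E - Finsupp.single w 1) :=
      (MazurP.space_le_span_ratFunctions hF hE).trans (Submodule.span_le.mpr fun u hu => hcon u hu)
    haveI := hF.finite_space (E - Finsupp.single w 1)
    have h1 := Submodule.finrank_mono hle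
    have h2 := hF.finrank_space E (by omega)
    have h3 := hF.finrank_space (E - Finsupp.single w 1) (by omega)
    rw [hdeg'] at h3
    omega
  have hu0 : u ≠ 0 := fun h => hu' (h ▸ zero_mem _)
  obtain ⟨v, hv⟩ := exists_kEmb_eq hurat
  refine ⟨v, fun h => hu0 (by rw [← hv, h, map_zero]), ?_⟩
  rw [hv]
  rw [mem_riemannRochSpace_iff] at hu hu'
  push Not at hu'
  obtain ⟨z, -, hz⟩ := hu'
  have hwu := (hu w).resolve_left hu0
  rcases eq_or_ne w z with rfl | hne
  · rw [Finsupp.sub_apply, Finsupp.single_eq_same] at hz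
    omega
  · rw [Finsupp.sub_apply, Finsupp.single_eq_of_ne hne.symm, sub_zero] at hz
    have := (hu z).resolve_left hu0
    omega

include hF in
/-- A fixed divisor of degree zero is attained at a given place by a function over `K`. -/
theorem exists_kEmb_ord_eq {D : Divisor Qbar (fieldBar Qbar M)}
    (hD : ∀ σ ∈ K.fixingSubgroup, 𝔤 σ • D = D) (hdeg : Divisor.degree D = 0)
    (w : Place Qbar (fieldBar Qbar M)) :
    ∃ a : fieldBar K M, a ≠ 0 ∧ w.ord (kEmb K M a) = D w := by
  classical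
  obtain ⟨P, -, hP⟩ := MazurP.exists_fixed_place (N := M)
  set E := Finsupp.single P (2 * (g : ℤ))
  have hEfix : ∀ σ ∈ K.fixingSubgroup, 𝔤 σ • E = E := fun σ _ => by
    simp only [E]
    rw [SemilinearAut.smul_single, hP σ]
  have hEdeg : Divisor.degree E = 2 * (g : ℤ) := by
    rw [Divisor.degree_single, hF.deg_one, Nat.cast_one, mul_one]
  obtain ⟨u₁, hu₁, h₁⟩ := exists_kEmb_ord_eq_of_large hF (E := E - D)
    (fun σ hσ => by rw [smul_sub, hEfix σ hσ, hD σ hσ])
    (by rw [map_sub, hEdeg, hdeg, sub_zero]) w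
  obtain ⟨u₂, hu₂, h₂⟩ := exists_kEmb_ord_eq_of_large hF (E := E) hEfix hEdeg.ge w
  refine ⟨u₁ / u₂, div_ne_zero hu₁ hu₂, ?_⟩
  have hne : ∀ u : fieldBar K M, u ≠ 0 → kEmb K M u ≠ 0 := fun u hu =>
    (map_ne_zero_iff _ (kEmb K M).injective).mpr hu
  rw [map_div₀, div_eq_mul_inv, w.ord_mul (hne _ hu₁) (inv_ne_zero (hne _ hu₂)), w.ord_inv, h₁, h₂,
    Finsupp.sub_apply]
  ring

include hF in
/-- A function with fixed divisor is, up to a constant, defined over `K`. -/
theorem exists_kEmb_of_fixed_div {G : fieldBar Qbar M} (hG : G ≠ 0)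
    {E : Divisor Qbar (fieldBar Qbar M)} (hdiv : ∀ v, E v = v.ord G)
    (hfix : ∀ σ ∈ K.fixingSubgroup, 𝔤 σ • E = E) :
    ∃ G' : fieldBar K M, G' ≠ 0 ∧ ∀ v : Place Qbar (fieldBar Qbar M),
      v.ord (kEmb K M G') = E v := by
  set a := (G : LaurentSeries Qbar).coeff (G : LaurentSeries Qbar).order
  have ha : a ≠ 0 := mt HahnSeries.coeff_order_eq_zero.mp (by simpa using hG)
  set h := a⁻¹ • G
  have hord : ∀ v : Place Qbar (fieldBar Qbar M), v.ord h = E v := fun v => by
    simp only [h]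
    rw [Algebra.smul_def, v.ord_mul (by simpa using ha) hG, Igusa.ord_algebraMap, zero_add, hdiv]
  have hh0 : h ≠ 0 := smul_ne_zero (inv_ne_zero ha) hG
  have hrat : h ∈ MazurP.ratFunctions M K := by
    intro σ hσ
    have hh : 𝔤 σ • h ≠ 0 := (smul_ne_zero_iff_ne _).mpr hh0
    have hσord : ∀ v : Place Qbar (fieldBar Qbar M), v.ord (𝔤 σ • h) = v.ord h := fun v => by
      have h1 := SemilinearAut.ord_smul (𝔤 σ) ((𝔤 σ)⁻¹ • v) h
      rw [smul_inv_smul] at h1
      rw [h1, hord, hord, ← SemilinearAut.divisor_smul_apply, hfix σ hσ]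
    obtain ⟨c, hc⟩ := MazurP.exists_eq_smul_one_of_ord_eq_zero hF (h := (𝔤 σ • h) / h) fun v => by
      rw [div_eq_mul_inv, v.ord_mul hh (inv_ne_zero hh0), v.ord_inv, hσord, add_neg_cancel]
    rw [div_eq_iff hh0, smul_mul_assoc, one_mul] at hc
    have hlead : MazurP.coeffVec h ((G : LaurentSeries Qbar).order) = 1 := by
      simp only [h]
      rw [map_smul, Pi.smul_apply, MazurP.coeffVec_apply, smul_eq_mul]
      exact inv_mul_cancel₀ ha
    have h2 : σ (MazurP.coeffVec h ((G : LaurentSeries Qbar).order)) =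
        c * MazurP.coeffVec h ((G : LaurentSeries Qbar).order) := by
      rw [MazurP.coeffVec_apply, ← MazurP.coeff_galois_smul, ← MazurP.coeffVec_apply, hc, map_smul]
      rfl
    rw [hlead, map_one, mul_one] at h2
    rw [hc, ← h2, one_smul]
  obtain ⟨G', hG'⟩ := exists_kEmb_eq hrat
  exact ⟨G', fun h0 => hh0 (by rw [← hG', h0, map_zero]), fun v => by rw [hG', hord]⟩

include hF in
/-- Locally an `m`-th power. -/
theorem isLocPowOver_of_div {m : ℕ} {D : Divisor Qbar (fieldBar Qbar M)}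
    (hD : ∀ σ ∈ K.fixingSubgroup, 𝔤 σ • D = D) (hdeg : Divisor.degree D = 0)
    {f : fieldBar K M} (hf : f ≠ 0)
    (hdiv : ∀ v : Place Qbar (fieldBar Qbar M), (m : ℤ) * D v = v.ord (kEmb K M f)) :
    IsLocPowOver K m f := by
  intro V hV hK
  obtain ⟨w, hw⟩ := exists_place_comap V hV hK
  obtain ⟨a, ha, haw⟩ := exists_kEmb_ord_eq hF hD hdeg w
  have hne : ∀ u : fieldBar K M, u ≠ 0 → kEmb K M u ≠ 0 := fun u hu =>
    (map_ne_zero_iff _ (kEmb K M).injective).mpr hu
  have h0 : w.ord (kEmb K M (a ^ m / f)) = 0 := by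
    rw [map_div₀, map_pow, div_eq_mul_inv,
      w.ord_mul (pow_ne_zero _ (hne _ ha)) (inv_ne_zero (hne _ hf)), w.ord_inv, ← hdiv,
      ← zpow_natCast, w.ord_zpow, haw, add_neg_cancel]
  have h0' : w.ord (kEmb K M (a ^ m / f)⁻¹) = 0 := by rw [map_inv₀, w.ord_inv, h0, neg_zero]
  have hne' : a ^ m / f ≠ 0 := div_ne_zero (pow_ne_zero _ ha) hf
  refine ⟨a, ha, ?_, ?_⟩ <;> rw [← hw, ValuationSubring.mem_comap,
    Curve.mem_iff_ord_nonneg w (hne _ (by first | exact hne' | exact inv_ne_zero hne'))]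
  · exact h0.ge
  · exact h0'.ge

include hF in
/-- Both sides of a vanishing push-forward: the norm is a constant times an `m`-th power. -/
theorem isNormPowOver_of_degPush {M' : ℕ} [NeZero M'] {m : ℕ} (d : ℕ) [NeZero d] (h : M * d ∣ M')
    (D : Divisor.degZero (K := Qbar) (F := fieldBar Qbar M'))
    (hD : ∀ σ ∈ K.fixingSubgroup, arithmeticGalois (modularFunctionFieldFull M') σ •
      (D : Divisor Qbar (fieldBar Qbar M')) = D)
    {f : fieldBar K M'} (hf : f ≠ 0)
    (hdiv : ∀ v : Place Qbar (fieldBar Qbar M'),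
      (m : ℤ) * (D : Divisor Qbar (fieldBar Qbar M')) v = v.ord (kEmb K M' f))
    (hzero : MazurP.degPush d h (Pic0.mk D) = 0) :
    IsNormPowOver K d h m f := by
  classical
  have hfin := finiteAlong_barBeta (levelFacts Qbar) d h
  have hint := finiteAlong_isIntegral hfin
  set E := Divisor.pushforwardAlong (barBeta Qbar d h) hint
    (D : Divisor Qbar (fieldBar Qbar M')) with hE
  have hEfix : ∀ σ ∈ K.fixingSubgroup, 𝔤 σ • E = E := fun σ hσ => by
    conv_rhs => rw [hE, ← hD σ hσ]
    refine (pushforwardAlong_smul (intertwinesAlong_of_coe _ _ _ fun y => ?_) _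
      ((curveFacts Qbar).deg_eq_one M') _).symm
    rw [coe_arithmeticGalois_smul, coe_barBeta, coe_barBeta, coe_arithmeticGalois_smul]
    exact ModularCurve.coeffMap_qExpand _ d _
  obtain ⟨G₀, hG₀, hG₀div⟩ : Divisor.IsPrincipal E := by
    rw [MazurP.degPush_mk] at hzero
    have h' := (QuotientAddGroup.eq_zero_iff _).mp hzero
    rw [AddSubgroup.mem_addSubgroupOf, Divisor.mem_principal] at h'
    exact h'
  obtain ⟨G, hG, hGdiv⟩ := exists_kEmb_of_fixed_div hF hG₀ hG₀div hEfix
  letI := (barBeta K d h).toRingHom.toAlgebra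
  haveI : Module.Finite (fieldBar K M) (fieldBar K M') := finiteAlong_barBeta (levelFacts K) d h
  have hnorm := map_norm_of_isConstantExtension (isConstantExtension_kEmb K M)
    (isConstantExtension_kEmb K M') (barBeta K d h) (barBeta Qbar d h) (kEmb_barBeta K d h)
    (finiteAlong_barBeta (levelFacts K) d h) f
  set Nf := Algebra.norm (fieldBar K M) f
  have hNf : Nf ≠ 0 := Algebra.norm_ne_zero_iff.mpr hf
  have hne : ∀ u : fieldBar K M, u ≠ 0 → kEmb K M u ≠ 0 := fun u hu =>
    (map_ne_zero_iff _ (kEmb K M).injective).mpr hu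
  have hordN : ∀ v : Place Qbar (fieldBar Qbar M), v.ord (kEmb K M Nf) = (m : ℤ) * E v := by
    intro v
    have h1 := (curveFacts Qbar).normFormula M M' (barBeta Qbar d h) hfin (kEmb K M' f)
      ((map_ne_zero_iff _ (kEmb K M').injective).mpr hf)
      (m • (D : Divisor Qbar (fieldBar Qbar M'))) (fun w => by
        rw [Finsupp.smul_apply, nsmul_eq_mul, hdiv]) v
    rw [hnorm]
    refine h1.symm.trans ?_
    show (Divisor.pushforwardAlong (barBeta Qbar d h) hint
      (m • (D : Divisor Qbar (fieldBar Qbar M')))) v = _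
    rw [map_nsmul, Finsupp.smul_apply, nsmul_eq_mul]
  have hrat : ∀ v : Place Qbar (fieldBar Qbar M), v.ord (kEmb K M (Nf / G ^ m)) = 0 := fun v => by
    rw [map_div₀, map_pow, div_eq_mul_inv,
      v.ord_mul (hne _ hNf) (inv_ne_zero (pow_ne_zero _ (hne _ hG))), v.ord_inv,
      ← zpow_natCast, v.ord_zpow, hordN, hGdiv, add_neg_cancel]
  obtain ⟨c, hc⟩ := MazurP.exists_eq_smul_one_of_ord_eq_zero hF hrat
  rw [Algebra.smul_def, mul_one] at hc
  set γ : K := ((Nf / G ^ m : fieldBar K M) : LaurentSeries K).coeff 0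
  have hγ : (γ : Qbar) = c := by
    have h0 := congrArg (fun z : fieldBar Qbar M => (z : LaurentSeries Qbar).coeff 0) hc
    rw [coe_kEmb, coeffMap_coeff] at h0
    refine h0.trans ?_
    show (algebraMap Qbar (LaurentSeries Qbar) c).coeff 0 = c
    rw [algebraMap_laurentSeries_eq_single, HahnSeries.coeff_single_same]
  refine ⟨γ, G, ?_⟩
  refine (kEmb K M).injective ?_
  rw [map_mul, kEmb_algebraMap, hγ, ← hc, ← map_mul, div_mul_cancel₀ _ (pow_ne_zero _ hG)]

end

/-- An effective divisor of degree zero vanishes. -/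
theorem divisor_eq_zero_of_nonneg {F : Type*} [Field F] [Algebra Qbar F]
    (hdeg1 : ∀ v : Place Qbar F, v.deg = 1) {E : Divisor Qbar F} (hE : ∀ v, 0 ≤ E v)
    (hdeg : Divisor.degree E = 0) : E = 0 := by
  classical
  refine Finsupp.ext fun v => le_antisymm ?_ (hE v)
  have hnn : 0 ≤ E - Finsupp.single v (E v) := Finsupp.le_def.mpr fun z => by
    rcases eq_or_ne v z with rfl | hne
    · simp
    · simpa [Finsupp.single_eq_of_ne hne.symm] using hE z
  have := Igusa.degree_nonneg hnn
  rw [map_sub, hdeg, Divisor.degree_single, hdeg1, Nat.cast_one, mul_one] at this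
  rw [Finsupp.coe_zero, Pi.zero_apply]
  omega

/-- **The bridge.** -/
theorem vanishing_of_mainOver (N q : ℕ) [NeZero N] [NeZero q] (hq : q.Prime)
    {C : ℕ} (hC : 0 < C) (hmain : MainOverAll N q C) : Vanishing N q := by
  intro h₁ h₂
  haveI : NeZero (N * q) := ⟨mul_ne_zero (NeZero.ne N) (NeZero.ne q)⟩
  haveI : NeZero (N * q * q) := ⟨mul_ne_zero (NeZero.ne (N * q)) (NeZero.ne q)⟩
  refine ⟨C, hC, fun p hp hpq n A hA x hx hfix hpush₁ hpush₂ => ?_⟩
  set K := MazurP.inertiaField A
  haveI := isFunctionFieldOne_fieldBar Qbar (N * q)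
  haveI := isFunctionFieldOne_fieldBar Qbar (N * q * q)
  have hF₁ := Igusa.rrField_genusFF Qbar (fieldBar Qbar (N * q))
  have hF := Igusa.rrField_genusFF Qbar (fieldBar Qbar (N * q * q))
  obtain ⟨D, f₀, rfl, hf₀, hf₀rat, hdiv, hDfix⟩ := MazurP.exists_ratDivisor (K := K) hF x
    (fun σ hσ => hfix σ (fixingSubgroup_inertiaField A ▸ hσ)) hx
  obtain ⟨f, rfl⟩ := exists_kEmb_eq hf₀rat
  have hf : f ≠ 0 := fun h => hf₀ (by rw [h, map_zero])
  have hdiv' : ∀ v, ((p ^ n : ℕ) : ℤ) * (D : Divisor Qbar (fieldBar Qbar (N * q * q))) v =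
      v.ord (kEmb K (N * q * q) f) := fun v => hdiv v
  obtain ⟨a, ha, haV⟩ := hmain A hA h₁ h₂ (p ^ n)
    (fun h => hpq ((Nat.prime_dvd_prime_iff_eq hq hp).mp (hq.dvd_of_dvd_pow h)).symm) f hf
    (isLocPowOver_of_div hF hDfix D.2 hf hdiv')
    (isNormPowOver_of_degPush hF₁ 1 h₁ D hDfix hf hdiv' hpush₁)
    (isNormPowOver_of_degPush hF₁ q h₂ D hDfix hf hdiv' hpush₂)
  have hne : ∀ u : fieldBar K (N * q * q), u ≠ 0 → kEmb K (N * q * q) u ≠ 0 := fun u hu =>
    (map_ne_zero_iff _ (kEmb K (N * q * q)).injective).mpr hu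
  obtain ⟨P, hP, hPdeg⟩ := hF.principal.exists_divisor _ (hne _ ha)
  have hmem : ∀ v : Place Qbar (fieldBar Qbar (N * q * q)),
      0 ≤ (P - C • (D : Divisor Qbar (fieldBar Qbar (N * q * q)))) v := by
    intro v
    have h1 : a ^ (p ^ n) / f ^ C ∈ v.toValuationSubring.comap (kEmb K (N * q * q)) :=
      haV _ fun c => by
        rw [ValuationSubring.mem_comap, kEmb_algebraMap]
        exact v.algebraMap_mem' _
    rw [ValuationSubring.mem_comap] at h1
    have h2 := Curve.ord_nonneg_of_mem_place v h1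
    rw [map_div₀, map_pow, map_pow, div_eq_mul_inv,
      v.ord_mul (pow_ne_zero _ (hne _ ha)) (inv_ne_zero (pow_ne_zero _ (hne _ hf))), v.ord_inv,
      ← zpow_natCast, ← zpow_natCast, v.ord_zpow, v.ord_zpow, ← hdiv'] at h2
    rw [Finsupp.sub_apply, Finsupp.smul_apply, nsmul_eq_mul, hP]
    have hm : (0 : ℤ) < (p ^ n : ℕ) := by exact_mod_cast pow_pos hp.pos n
    by_contra hlt
    push Not at hlt
    have := mul_neg_of_pos_of_neg hm hlt
    linarith
  have hzero := divisor_eq_zero_of_nonneg hF.deg_one hmem (by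
    rw [map_sub, map_nsmul, hPdeg, Divisor.mem_degZero.mp D.2]
    simp)
  show C • Pic0.mk D = 0
  have h : Pic0.mk (C • D) = 0 := by
    refine (QuotientAddGroup.eq_zero_iff _).mpr ?_
    rw [AddSubgroup.mem_addSubgroupOf, Divisor.mem_principal]
    refine ⟨_, hne _ ha, fun v => ?_⟩
    rw [← hP, ← sub_eq_zero]
    have := DFunLike.congr_fun hzero v
    rw [Finsupp.sub_apply, Finsupp.coe_zero, Pi.zero_apply] at this
    rw [← neg_eq_zero, neg_sub]
    exact this
  exact h

/-- The vanishing statement at every level from the main statements over inertia fields. -/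
theorem vanishingAll_of_mainOver
    (hmain : ∀ (N q : ℕ) [NeZero N] [NeZero q], q.Prime → ¬ q ∣ N →
      ∃ C, 0 < C ∧ MainOverAll N q C) :
    VanishingAll := fun N q _ _ hq hqN => by
  obtain ⟨C, hC, h⟩ := hmain N q hq hqN
  exact vanishing_of_mainOver N q hq hC h

end FermatLib.Galois.Carayol36
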