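import Fermat.Agent.Galois.MazurP.DegeneracyHecke

/-!
# Degeneracy push-forwards commute with the Hecke operators prime to the level

For a prime `q` and `M q ∣ M'`, the push-forward `J₀(M') → J₀(M)` along `f(τ) ↦ f(qτ)` commutes
with `T ℓ`, `ℓ ∤ M'`; no hypothesis on the power of `q` dividing `M'`.
-/

set_option autoImplicit false
set_option linter.style.haveILetI false

noncomputable section

open ModularCurve AlgebraicCurve IntermediateField
open FermatLib.Modular FermatLib.Modular.Corr FermatLib.MazurP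

namespace FermatLib.Carayol36

local notation "Qbar" => AlgebraicClosure ℚ

variable {M M' q : ℕ} [NeZero M] [NeZero M'] [NeZero q]

theorem finrankAlong_barBeta_prime_to {l : ℕ} [NeZero l] [NeZero (M * l)] {N' : ℕ} [NeZero N']
    (hl : l.Prime) (hlM : ¬ l ∣ M') (hN' : M' * l = N') (h : M * q ∣ M')
    (h' : M * l * q ∣ N') :
    finrankAlong Qbar (barBeta Qbar q h') = finrankAlong Qbar (barBeta Qbar q h) := by
  subst hN'
  have hL := levelFacts Qbar
  have hlM₀ : ¬ l ∣ M := fun hd => hlM (hd.trans ((dvd_mul_right M q).trans h))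
  set f := qExpandBar Qbar q
  have hle : ∀ A : ℕ, (Qbar⟮jBar Qbar⟯).map f ≤ (fieldBar Qbar A).map f := fun A =>
    IntermediateField.map_mono f (adjoin_jBar_le A)
  have hle' : ∀ {A B : ℕ} [NeZero A] [NeZero B], A * q ∣ B →
      (fieldBar Qbar A).map f ≤ fieldBar Qbar B := by
    rintro A B _ _ hAB _ ⟨x, hx, rfl⟩
    have := (barBeta Qbar q hAB ⟨x, hx⟩).2
    rwa [coe_barBeta, ← qExpandBar_apply] at this
  have hmap : ∀ (A : ℕ) [NeZero A],
      relfinrank ((Qbar⟮jBar Qbar⟯).map f) ((fieldBar Qbar A).map f) = dedekindPsi A := by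
    intro A _
    rw [← hL.degree A]
    exact relfinrank_map_map _ _ f
  rw [finrankAlong_barBeta_eq_relfinrank, finrankAlong_barBeta_eq_relfinrank]
  have h1 := relfinrank_mul_relfinrank (hle M) (hle' h)
  have h2 := relfinrank_mul_relfinrank (hle (M * l)) (hle' h')
  have h3 := relfinrank_mul_relfinrank ((hle M).trans (hle' h))
    (fieldBar_le (L := Qbar) (dvd_mul_right M' l))
  have h4 := finrankAlong_barIncl_mul hL (dvd_mul_right M' l)
  rw [finrankAlong_barIncl_eq_relfinrank, dedekindPsi_mul_prime M' hl, if_neg hlM] at h4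
  rw [hmap] at h1 h2
  rw [Nat.eq_of_mul_eq_mul_right (dedekindPsi_pos' M') h4, ← h1] at h3
  rw [dedekindPsi_mul_prime M hl, if_neg hlM₀, ← h3] at h2
  refine Nat.eq_of_mul_eq_mul_left (Nat.mul_pos l.succ_pos (dedekindPsi_pos' M)) (h2.trans ?_)
  simp only [f, Nat.succ_eq_add_one]
  ring

/-- A subfield of `ℚ̄(X₀(N'))` containing `L`, the image of level `A` and `j`, `j_{N'}`. -/
theorem eq_top_of_jBar_mem (S : Subfield (fieldBar Qbar M')) (y₀ y₁ : fieldBar Qbar M')
    (hc : ∀ c : Qbar, algebraMap Qbar (fieldBar Qbar M') c ∈ S)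
    (h₀ : y₀ ∈ S) (h₀' : (y₀ : LaurentSeries Qbar) = jBar Qbar)
    (h₁ : y₁ ∈ S) (h₁' : (y₁ : LaurentSeries Qbar) = qExpand Qbar M' (jBar Qbar)) : S = ⊤ := by
  refine eq_top_iff.mpr fun z _ => ?_
  have hle : (fieldBar Qbar M').toSubfield ≤ S.map (fieldBar Qbar M').val.toRingHom := by
    conv_lhs => rw [fieldBar_eq_adjoin_pair M' ((levelFacts Qbar).generation _)]
    rw [IntermediateField.adjoin_toSubfield, Subfield.closure_le]
    rintro w (⟨c, rfl⟩ | rfl | rfl)
    · exact ⟨_, hc c, rfl⟩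
    · exact ⟨y₀, h₀, h₀'⟩
    · exact ⟨y₁, h₁, h₁'⟩
  obtain ⟨w, hw, hwz⟩ := hle z.2
  exact (Subtype.ext hwz : w = z) ▸ hw

/-- A map carrying two generating ranges into two ranges carries everything into their join. -/
theorem mem_closure_of_comm {E F A B A' B' : Type*} [Field E] [Field F] (ι : E →+* F)
    (u : A → E) (v : B → E) (u' : A' → F) (v' : B' → F) (a : A → A') (b : B → B')
    (hu : ∀ x, u' (a x) = ι (u x)) (hv : ∀ x, v' (b x) = ι (v x))
    (htop : Subfield.closure (Set.range u ∪ Set.range v) = ⊤) (z : E) :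
    ι z ∈ Subfield.closure (Set.range u' ∪ Set.range v') := by
  have hle : Subfield.closure (Set.range u ∪ Set.range v) ≤
      (Subfield.closure (Set.range u' ∪ Set.range v')).comap ι := by
    rw [Subfield.closure_le]
    rintro _ (⟨x, rfl⟩ | ⟨x, rfl⟩)
    · exact Subfield.subset_closure (Or.inl ⟨a x, hu x⟩)
    · exact Subfield.subset_closure (Or.inr ⟨b x, hv x⟩)
  exact Subfield.mem_comap.mp (hle (htop.symm ▸ Subfield.mem_top z))

/-- The square comparing level `A` with level `B`: raising commutes with inclusion. -/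
theorem barBeta_barIncl {A A' B B' : ℕ} [NeZero A] [NeZero A'] [NeZero B] [NeZero B'] (d : ℕ)
    [NeZero d] (hA : A ∣ A') (hB : B ∣ B') (h : A * d ∣ B) (h' : A' * d ∣ B')
    (x : fieldBar Qbar A) :
    barBeta Qbar d h' (barIncl Qbar hA x) =
      (barIncl Qbar hB).toRingHom (barBeta Qbar d h x) :=
  Subtype.ext (((coe_barBeta d h' _).trans (congrArg _ (coe_barIncl hA x))).trans
    ((coe_barIncl hB _).trans (coe_barBeta d h x)).symm)

omit [NeZero M] in
/-- `j` lies in the subfield generated by level `M l` raised by `q` and level `M'` raised by `l`. -/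
theorem exists_jBar_mem_closure (hq : q.Prime) (h : M * q ∣ M') {l : ℕ} [NeZero l]
    [NeZero (M * l)] (hl : l.Prime) (hlM : ¬ l ∣ M') [NeZero (M' * l)]
    (h' : M * l * q ∣ M' * l) :
    ∃ y ∈ Subfield.closure (Set.range (barBeta Qbar q h') ∪
      Set.range (barBeta Qbar l (dvd_refl (M' * l)))),
      (y : LaurentSeries Qbar) = jBar Qbar := by
  have hql : ¬ l ∣ q := fun hd => hlM (hd.trans ((dvd_mul_left q M).trans h))
  haveI : Fact q.Prime := ⟨hq⟩
  haveI : NeZero (q * 1) := ⟨by rw [mul_one]; exact NeZero.ne q⟩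
  haveI : NeZero (1 * l) := ⟨by rw [one_mul]; exact NeZero.ne l⟩
  haveI : NeZero (q * (1 * l)) := ⟨mul_ne_zero (NeZero.ne q) (NeZero.ne _)⟩
  have hql' : q * (1 * l) ∣ M' * l := by
    rw [one_mul]
    exact mul_dvd_mul_right ((dvd_mul_left q M).trans h) l
  have hlle : 1 * l ∣ M * l := mul_dvd_mul_right (one_dvd M) l
  have hqle : q * 1 ∣ M' := by
    rw [mul_one]
    exact (dvd_mul_left q M).trans h
  have hB : 1 * l * q ∣ q * (1 * l) := dvd_of_eq (mul_comm _ _)
  have hB' : q * 1 * l ∣ q * (1 * l) := dvd_of_eq (mul_assoc q 1 l)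
  have hc := (isCocartesian_barBeta_swap (q := q) (M := 1) hq.not_dvd_one hl
    (fun hd => hql (by rwa [mul_one] at hd)) (dvd_of_eq (mul_comm 1 q)) hB
    (mul_assoc q 1 l)).generate
  exact ⟨_, mem_closure_of_comm (barIncl Qbar hql').toRingHom (barBeta Qbar q hB)
    (barBeta Qbar l hB') (barBeta Qbar q h') (barBeta Qbar l (dvd_refl (M' * l)))
    (barIncl Qbar hlle) (barIncl Qbar hqle) (barBeta_barIncl q hlle hql' hB h')
    (barBeta_barIncl l hqle hql' hB' (dvd_refl (M' * l))) hc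
    ⟨jBar Qbar, jBar_mem_fieldBar _⟩, coe_barIncl hql' _⟩

theorem closure_range_barBeta_prime (hq : q.Prime) (h : M * q ∣ M') {l : ℕ} [NeZero l]
    [NeZero (M * l)] (hl : l.Prime) (hlM : ¬ l ∣ M') [NeZero (M' * l)]
    (h' : M * l * q ∣ M' * l) :
    Subfield.closure (Set.range (barBeta Qbar q h') ∪
      Set.range (barBeta Qbar l (dvd_refl (M' * l)))) = ⊤ := by
  obtain ⟨y, hy, hy'⟩ := exists_jBar_mem_closure hq h hl hlM h'
  refine eq_top_of_jBar_mem _ y
    (barBeta Qbar l (dvd_refl (M' * l)) ⟨qExpand Qbar M' (jBar Qbar),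
      qExpand_jBar_mem_fieldBar dvd_rfl⟩) (fun c => ?_) hy hy'
    (Subfield.subset_closure (Or.inr ⟨_, rfl⟩)) ?_
  · exact Subfield.subset_closure (Or.inl ⟨algebraMap Qbar _ c, AlgHom.commutes _ c⟩)
  · exact ((coe_barBeta l _ _).trans (qExpand_qExpand _ _ _)).trans (qExpand_congr (mul_comm l M') _)

theorem isCocartesian_barBeta_prime (hq : q.Prime) (h : M * q ∣ M') {l : ℕ} [NeZero l]
    [NeZero (M * l)] (hl : l.Prime) (hlM : ¬ l ∣ M') [NeZero (M' * l)]
    (h' : M * l * q ∣ M' * l) :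
    IsCocartesian (barBeta Qbar q h) (barBeta Qbar l (dvd_refl (M * l)))
      (barBeta Qbar l (dvd_refl (M' * l))) (barBeta Qbar q h') where
  comm := comp_eq_comp_of_coe _ _ _ _ fun x => by
    rw [coe_barBeta, coe_barBeta, coe_barBeta, coe_barBeta, qExpand_qExpand, qExpand_qExpand]
    exact qExpand_congr (mul_comm l q) _
  finite_left := finiteAlong_barBeta (levelFacts Qbar) q h
  finite_right := finiteAlong_barBeta (levelFacts Qbar) q h'
  finrank_eq := finrankAlong_barBeta_prime_to hl hlM rfl h h'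
  generate := closure_range_barBeta_prime hq h hl hlM h'

/-- `π_{q*}` commutes with `T ℓ`, `ℓ ∤ M'`. -/
theorem degPush_hecke_prime_to_level (hq : q.Prime) (h : M * q ∣ M') (ℓ : Nat.Primes)
    (hℓ : ¬ (ℓ : ℕ) ∣ M') (x : JZero M') :
    degPush q h (heckeOperatorBar M' ℓ x) = heckeOperatorBar M ℓ (degPush q h x) := by
  haveI : NeZero (ℓ : ℕ) := ⟨ℓ.2.ne_zero⟩
  haveI := Corr.neZero_mul' M ℓ
  haveI := Corr.neZero_mul' M' ℓ
  have h' : M * ℓ * q ∣ M' * ℓ := by
    rw [mul_right_comm]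
    exact mul_dvd_mul_right h _
  exact degPush_hecke_of_isCocartesian q h ℓ rfl h'
    (isCocartesian_barBeta_prime hq h ℓ.2 hℓ h') x

/-- Both push-forwards commute with the Hecke polynomials away from the level. -/
theorem degPush_prime_hecke_smul_away (hq : q.Prime) (h : M * q ∣ M') {t : HeckeAlg}
    (ht : t ∈ Galois.awayHeckeAlg {r : ℕ | r ∣ M'}) (x : JZero M') :
    degPush q h (letI := heckeModuleBar M'; t • x) =
      (letI := heckeModuleBar M; t • degPush q h x) :=
  map_heckeModuleBar_smul _ (fun ℓ hℓ => degPush_hecke_prime_to_level hq h ℓ hℓ) ht x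

end FermatLib.Carayol36
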