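import Fermat.Agent.Galois.Carayol36.AuxLevel
import Fermat.Agent.Igusa.Carayol.TowerModular
import Fermat.Agent.Igusa.Carayol.TowerEmbeddings

/-!
# The vanishing on the Jacobian from the main statement of the modular towers

The main statement is used at levels having a prime divisor `r ≡ 11 (mod 12)`; an auxiliary prime
brings it down to every level.
-/

set_option autoImplicit false
set_option synthInstance.maxHeartbeats 400000
set_option maxHeartbeats 1000000
set_option linter.style.haveILetI false

noncomputable section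

open ModularCurve AlgebraicCurve
open FermatLib.Modular.Corr

namespace FermatLib.Galois.Carayol36

local notation "Qbar" => AlgebraicClosure ℚ

open Igusa.Carayol (Tower modularTower)

theorem tower_finrank_β₁ {q : ℕ} [NeZero q] (T : Tower q) :
    letI := T.β₁.toRingHom.toAlgebra
    Module.finrank T.F₁ T.F₂ = q := by
  rw [@Algebra.finrank_eq_of_equiv_equiv T.F₁ T.F₂ _ _ T.β₁.toRingHom.toAlgebra T.F₁ T.F₂ _ _
    T.ι₁.toRingHom.toAlgebra T.w₁.toRingEquiv T.w₂.toRingEquiv
    (RingHom.ext fun y => (T.w₂_β₁ y).symm)]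
  exact T.finrank₁

theorem tower_ι₁_ne_β₁β₀_j {q : ℕ} [NeZero q] (T : Tower q) (y : T.F₁) :
    T.ι₁ y ≠ T.β₁ (T.β₀ T.j) := fun h => by
  have h1 := (congrArg T.εb h).symm
  rw [T.εb_β, T.εb_ι₁, h, T.ε_β₁] at h1
  have h2 := congrArg (fun s : LaurentSeries T.L => s.coeff (-1)) h1
  simp only [Igusa.monoNewScale_coeff, T.coeff_neg_one_qExpand, T.j_coeff, mul_one] at h2
  exact Units.ne_zero _ h2

theorem barBeta_one_eq_barIncl (K : Type) [Field K] [Algebra ℚ K] {M M' : ℕ} [NeZero M]
    [NeZero M'] (h : M * 1 ∣ M') :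
    barBeta K 1 h = barIncl K ((dvd_mul_right M 1).trans h) :=
  AlgHom.ext fun x => Subtype.ext (by rw [coe_barBeta, coe_barIncl, qExpand_one_apply])

section

variable (N q : ℕ) [NeZero N] [NeZero q] (hq : q.Prime) (hqN : ¬ q ∣ N)
  (A : ValuationSubring Qbar) (hA : A.LiesOverPrime q)

include hq hqN hA

theorem finrankAlong_levels (h₁ : N * q * 1 ∣ N * q * q) (h₂ : N * q * q ∣ N * q * q) :
    finrankAlong (MazurP.inertiaField A) (barBeta (MazurP.inertiaField A) 1 h₁) = q ∧
      finrankAlong (MazurP.inertiaField A) (barBeta (MazurP.inertiaField A) q h₂) = q := by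
  refine ⟨?_, tower_finrank_β₁ (modularTower N q hq hqN A hA)⟩
  rw [barBeta_one_eq_barIncl]
  exact (modularTower N q hq hqN A hA).finrank₁

theorem coe_ne_middle (z : fieldBar (MazurP.inertiaField A) (N * q)) :
    (z : LaurentSeries (MazurP.inertiaField A)) ≠
      coeffEmb (MazurP.inertiaField A) (qExpand ℚ (q * q) jq) := fun hz => by
  refine tower_ι₁_ne_β₁β₀_j (modularTower N q hq hqN A hA) z (Subtype.ext ?_)
  show ((barIncl (MazurP.inertiaField A) (dvd_mul_right (N * q) q) z) :
      LaurentSeries (MazurP.inertiaField A)) =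
    ((barBeta (MazurP.inertiaField A) q (dvd_refl (N * q * q))
      (barBeta (MazurP.inertiaField A) q (dvd_refl (N * q))
        (FermatLib.Modular.jElem (MazurP.inertiaField A) N))) :
      LaurentSeries (MazurP.inertiaField A))
  rw [coe_barIncl, hz, coe_barBeta, coe_barBeta, FermatLib.Modular.coe_jElem, ← coeffEmb_qExpand,
    ← coeffEmb_qExpand, qExpand_qExpand]

/-- The main statement of the modular tower, read on the fields over the inertia field. -/
theorem mainOver_of_mainStatement (h : (modularTower N q hq hqN A hA).MainStatement) :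
    MainOver (MazurP.inertiaField A) N q (Igusa.Carayol.Tower.bound q) := by
  intro h₁ h₂ m hm f hf hloc hn₁ hn₂
  have hmk : (m : (modularTower N q hq hqN A hA).k) ≠ 0 := fun h0 =>
    hm ((CharP.cast_eq_zero_iff (modularTower N q hq hqN A hA).k q m).mp h0)
  rw [IsNormPowOver, barBeta_one_eq_barIncl] at hn₁
  exact h m hmk f hf hloc hn₁ hn₂

end

/-- The degree of `X₀(N r q²) → X₀(N q²)`. -/
theorem finrankAlong_aux (K : Type) [Field K] [Algebra ℚ K] (N q r : ℕ) [NeZero N] [NeZero q]
    [NeZero r] (hr : r.Prime) (hrN : ¬ r ∣ N * q * q)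
    (h : N * q * q ∣ N * r * q * q) : finrankAlong K (barIncl K h) = r + 1 := by
  have h1 := finrankAlong_barIncl_mul (levelFacts K) h
  rw [show dedekindPsi (N * r * q * q) = dedekindPsi (N * q * q * r) from congrArg _ (by ring),
    dedekindPsi_mul_prime (N * q * q) hr, if_neg hrN] at h1
  exact Nat.eq_of_mul_eq_mul_right (dedekindPsi_pos' _) h1

/-- **The vanishing at every level** from the main statement of the modular towers at levels with
an auxiliary prime. -/
theorem vanishingAll_of_mainStatement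
    (hMS : ∀ (N q : ℕ) [NeZero N] [NeZero q] (hq : q.Prime) (hqN : ¬ q ∣ N)
      (A : ValuationSubring Qbar) (hA : A.LiesOverPrime q) (r : ℕ), r.Prime → r ∣ N →
        r % 12 = 11 → (modularTower N q hq hqN A hA).MainStatement) :
    VanishingAll := by
  refine vanishingAll_of_mainOver fun N q _ _ hq hqN => ?_
  obtain ⟨r, hlt, hr, hr12⟩ := Nat.forall_exists_prime_gt_and_modEq (N + q) (q := 12) (a := 11)
    (by norm_num) (by norm_num)
  have : NeZero r := ⟨hr.ne_zero⟩
  have hrq : r ≠ q := by omega
  have hrN : ¬ r ∣ N := fun h => by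
    have := Nat.le_of_dvd (Nat.pos_of_ne_zero (NeZero.ne N)) h
    omega
  have hqNr : ¬ q ∣ N * r := fun h =>
    (hq.dvd_mul.mp h).elim hqN fun h => hrq ((Nat.prime_dvd_prime_iff_eq hq hr).mp h).symm
  have hrNqq : ¬ r ∣ N * q * q := fun h =>
    (hr.dvd_mul.mp h).elim (fun h => (hr.dvd_mul.mp h).elim hrN
      fun h => hrq ((Nat.prime_dvd_prime_iff_eq hr hq).mp h))
      fun h => hrq ((Nat.prime_dvd_prime_iff_eq hr hq).mp h)
  refine ⟨Igusa.Carayol.Tower.bound q * (r + 1), Nat.mul_pos
    (pow_pos (Nat.mul_pos q.succ_pos (Nat.sub_pos_of_lt hq.one_lt)) 4) r.succ_pos,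
    fun A hA => ?_⟩
  have h := mainOver_of_auxLevel (K := MazurP.inertiaField A) N q r _ hq
    (finrankAlong_levels N q hq hqN A hA) (finrankAlong_levels (N * r) q hq hqNr A hA)
    (coe_ne_middle (N * r) q hq hqNr A hA)
    (mainOver_of_mainStatement (N * r) q hq hqNr A hA
      (hMS (N * r) q hq hqNr A hA r hr (dvd_mul_left r N) (by
        rw [Nat.ModEq] at hr12
        omega)))
  rwa [finrankAlong_aux _ N q r hr hrNqq] at h

end FermatLib.Galois.Carayol36
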