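import Fermat.Agent.Galois.AttachExtension

/-!
# Extending a point of a Hecke subalgebra over a finite extension of the coefficients
-/

set_option autoImplicit false

noncomputable section

namespace FermatLib.Galois.Carayol36

/-- Images of elements integral over `ℤ` are integral over every ring. -/
theorem isIntegral_map_of_isIntegral_int {T A B : Type*} [CommRing T] [Algebra.IsIntegral ℤ T]
    [CommRing A] [CommRing B] [Algebra A B] (f : T →+* B) (t : T) : IsIntegral A (f t) := by
  obtain ⟨P, hP, hPt⟩ := Algebra.IsIntegral.isIntegral (R := ℤ) t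
  refine ⟨P.map (Int.castRingHom A), hP.map _, ?_⟩
  have h := congrArg f hPt
  rw [Polynomial.hom_eval₂, map_zero] at h
  rw [Polynomial.eval₂_map]
  exact (congrArg (fun g : ℤ →+* B => Polynomial.eval₂ g (f t) P) (RingHom.ext_int _ _)).trans h

/-- A point with values in a complete discrete valuation ring of a subring of a finite `ℤ`-algebra
extends, over a finite extension of the coefficients, to a point with the kernel of a given
complex point. -/
theorem exists_point_extension {R T : Type*} [CommRing R] [CommRing T] [Module.Finite ℤ T]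
    (i : R →+* T) (ξ : T →+* ℂ) (O : Type) [CommRing O] [IsDomain O] [IsDiscreteValuationRing O]
    [IsAdicComplete (IsLocalRing.maximalIdeal O) O] [Finite (IsLocalRing.ResidueField O)]
    [CharZero O] (κ : R →+* O) (hκ : RingHom.ker κ = RingHom.ker (ξ.comp i)) :
    ∃ (O' : Type) (_ : CommRing O') (_ : IsDomain O') (_ : IsDiscreteValuationRing O')
      (_ : IsAdicComplete (IsLocalRing.maximalIdeal O') O')
      (_ : Finite (IsLocalRing.ResidueField O')) (_ : CharZero O')
      (φ : O →+* O'), Function.Injective φ ∧ IsLocalHom φ ∧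
      ∃ χ : T →+* O', (∀ r, χ (i r) = φ (κ r)) ∧ ∀ t, χ t = 0 → ξ t = 0 := by
  let K := FractionRing O
  let Ω := AlgebraicClosure K
  let jO : O →+* Ω := (algebraMap K Ω).comp (algebraMap O K)
  have hjO : Function.Injective jO :=
    (algebraMap K Ω).injective.comp (IsFractionRing.injective O K)
  let := i.toAlgebra
  have : Algebra.IsIntegral R T := Algebra.IsIntegral.tower_top ℤ
  have : (RingHom.ker κ).IsPrime := RingHom.ker_isPrime _
  have : (RingHom.ker ξ).IsPrime := RingHom.ker_isPrime _
  have : (RingHom.ker ξ).LiesOver (RingHom.ker κ) := ⟨hκ.trans (RingHom.comap_ker ξ i).symm⟩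
  let j₀ : R →+* Ω := jO.comp κ
  have hj₀ : ∀ x ∈ RingHom.ker κ, j₀ x = 0 := fun x hx => by
    rw [RingHom.comp_apply, RingHom.mem_ker.mp hx, map_zero]
  let : Algebra (R ⧸ RingHom.ker κ) Ω := (Ideal.Quotient.lift _ j₀ hj₀).toAlgebra
  have hinj : Function.Injective (algebraMap (R ⧸ RingHom.ker κ) Ω) :=
    RingHom.lift_injective_of_ker_le_ideal _ hj₀ fun x hx => by
      rw [RingHom.mem_ker, RingHom.comp_apply] at hx
      exact RingHom.mem_ker.mpr ((map_eq_zero_iff jO hjO).mp hx)
  have : Module.IsTorsionFree (R ⧸ RingHom.ker κ) Ω := by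
    have : FaithfulSMul (R ⧸ RingHom.ker κ) Ω := (faithfulSMul_iff_algebraMap_injective _ _).2 hinj
    infer_instance
  let ψ₀ : (T ⧸ RingHom.ker ξ) →+* Ω :=
    (IsAlgClosed.lift (R := R ⧸ RingHom.ker κ) (S := T ⧸ RingHom.ker ξ) (M := Ω)).toRingHom
  let ψ : T →+* Ω := ψ₀.comp (Ideal.Quotient.mk _)
  have hψ : ∀ r, ψ (i r) = jO (κ r) := fun r => by
    have h := (IsAlgClosed.lift (R := R ⧸ RingHom.ker κ) (S := T ⧸ RingHom.ker ξ)
      (M := Ω)).commutes (Ideal.Quotient.mk (RingHom.ker κ) r)
    simpa [ψ, ψ₀, Ideal.Quotient.algebraMap_mk_of_liesOver, RingHom.algebraMap_toAlgebra, j₀] using h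
  -- `ψ` has the kernel of `ξ`
  have hker : ∀ t, ψ t = 0 → ξ t = 0 := by
    have : CharZero (T ⧸ RingHom.ker ξ) :=
      ((RingHom.kerLift ξ).charZero_iff (RingHom.kerLift_injective ξ)).mpr inferInstance
    have : (RingHom.ker ψ₀).IsPrime := RingHom.ker_isPrime _
    have hbot : RingHom.ker ψ₀ = ⊥ := by
      refine Ideal.eq_bot_of_comap_eq_bot (R := ℤ) ?_
      rw [RingHom.comap_ker]
      have : CharZero Ω := charZero_of_injective_ringHom hjO
      exact (RingHom.injective_iff_ker_eq_bot _).1 (RingHom.injective_int _)
    intro t ht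
    have h0 : Ideal.Quotient.mk (RingHom.ker ξ) t = 0 := by
      rw [← Ideal.mem_bot, ← hbot]
      exact RingHom.mem_ker.mpr ht
    exact RingHom.mem_ker.mp (Ideal.Quotient.eq_zero_iff_mem.mp h0)
  -- the field of values
  obtain ⟨s, hs⟩ := Module.finite_def.mp ‹Module.Finite ℤ T›
  let L : IntermediateField K Ω := IntermediateField.adjoin K (ψ '' (s : Set T))
  have : FiniteDimensional K L := by
    have : Finite (ψ '' (s : Set T)) := (s.finite_toSet.image ψ).to_subtype
    refine IntermediateField.finiteDimensional_adjoin fun x hx => ?_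
    obtain ⟨t, -, rfl⟩ := hx
    exact isIntegral_map_of_isIntegral_int ψ t
  have hmem : ∀ t : T, ψ t ∈ L := fun t => by
    have ht : t ∈ Submodule.span ℤ (s : Set T) := hs ▸ Submodule.mem_top
    induction ht using Submodule.span_induction with
    | mem x hx => exact IntermediateField.subset_adjoin K _ ⟨x, hx, rfl⟩
    | zero => rw [map_zero]; exact zero_mem L
    | add x y _ _ hx hy => rw [map_add]; exact add_mem hx hy
    | smul n x _ hx => rw [map_zsmul]; exact zsmul_mem hx n
  let ψL : T →+* L := ψ.codRestrict L hmem
  have hmemC : ∀ t, ψL t ∈ integralClosure O L := fun t => isIntegral_map_of_isIntegral_int ψL t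
  have := Attach.isLocalRing_integralClosure O L
  have := Attach.isDiscreteValuationRing_integralClosure O L
  have := Attach.finite_integralClosure O L
  have := Attach.isLocalHom_integralClosure O L
  have := Attach.isAdicComplete_integralClosure O L
  have := Attach.charZero_integralClosure O L
  have := Attach.finite_residueField_integralClosure O L
  refine ⟨integralClosure O L, inferInstance, inferInstance, inferInstance, inferInstance,
    inferInstance, inferInstance, algebraMap O (integralClosure O L),
    Attach.injective_algebraMap_integralClosure O L, inferInstance,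
    ψL.codRestrict (integralClosure O L) hmemC, fun r => Subtype.ext (Subtype.ext ?_), fun t ht => ?_⟩
  · show ψ (i r) = _
    rw [hψ]
    show algebraMap K Ω (algebraMap O K (κ r)) =
      algebraMap L Ω ((algebraMap O (integralClosure O L) (κ r) : integralClosure O L) : L)
    rw [Subalgebra.coe_algebraMap, IsScalarTower.algebraMap_apply O K L,
      ← IsScalarTower.algebraMap_apply K L Ω]
  · exact hker t (congrArg (fun z : integralClosure O L => ((z : L) : Ω)) ht)

end FermatLib.Galois.Carayol36
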