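import Fermat.Agent.Galois.Carayol36.Statement
import Fermat.Agent.Galois.Carayol36.PointExtension
import Fermat.Agent.Galois.Carayol36.DegPushHecke
import Fermat.Agent.Galois.AttachFinal
import Fermat.Agent.Galois.AttachKummer
import Fermat.Agent.Galois.MazurP.LevelMKill
import Fermat.Agent.Galois.NewformRepSeparate
import Fermat.Agent.Galois.FrobeniusCharpoly
import Fermat.Agent.Modular.HeckeFinite
import Fermat.Agent.Modular.IntStruct
import Fermat.Agent.Basic.FrobeniusExists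

/-!
# Carayol: no unipotent inertia at a prime whose square exactly divides the level

From the vanishing statement and the congruence relation: if a representation with the Frobenius
polynomials of a newform were unipotent on inertia at `q`, the Tate module of `J₀(N q²)` would
have inertia-fixed points in the eigenspace, killed by the push-forwards after applying an
operator separating the newform from level `N q`.
-/

set_option autoImplicit false
set_option linter.style.haveILetI false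

noncomputable section

open ModularCurve Polynomial CongruenceSubgroup

namespace FermatLib.Galois.Carayol36

local notation "Qbar" => AlgebraicClosure ℚ
local notation "Γℚ" => (AlgebraicClosure ℚ ≃ₐ[ℚ] AlgebraicClosure ℚ)

/-- The Kummer description of the torsion of `J₀(N)`. -/
theorem kummerHeckeEquiv (N p : ℕ) [NeZero N] (hp : p.Prime) : Attach.KummerHeckeEquiv N p := by
  intro k
  haveI : NeZero (p ^ k) := ⟨pow_ne_zero k hp.ne_zero⟩
  exact ⟨Modular.Kummer.muC (p ^ k), inferInstance, Modular.KummerHecke.muCEquiv (p ^ k),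
    Modular.KummerHecke.heckeKummerEquiv N (p ^ k),
    Modular.KummerHecke.heckeKummerEquiv_hecke N (p ^ k)⟩

theorem exists_eq_mul_mul_of_factorization_eq_two {M q : ℕ} [NeZero M] (hq : q.Prime)
    (h : M.factorization q = 2) : ∃ N, M = N * q * q ∧ ¬ q ∣ N := by
  obtain ⟨a, N, hN, hM⟩ := Nat.exists_eq_pow_mul_and_not_dvd (NeZero.ne M) q hq.ne_one
  have hN0 : N ≠ 0 := fun h0 => hN (h0 ▸ dvd_zero q)
  have ha : a = 2 := by
    rw [hM, Nat.factorization_mul (pow_ne_zero _ hq.ne_zero) hN0, Finsupp.add_apply,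
      hq.factorization_pow, Finsupp.single_eq_same, Nat.factorization_eq_zero_of_not_dvd hN,
      add_zero] at h
    exact h
  exact ⟨N, by rw [hM, ha]; ring, hN⟩

/-- The characteristic polynomial after extending the scalars. -/
theorem charpoly_baseChangeAlong {A B : Type} [CommRing A] [IsLocalRing A] [CommRing B]
    [IsLocalRing B] (φ : A →+* B) (hφ : IsLocalHom φ) (ρ : GaloisRepAdic A) (σ : Γℚ) :
    LinearMap.charpoly ((ρ.baseChangeAlong φ hφ).ρ σ) = (LinearMap.charpoly (ρ.ρ σ)).map φ := by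
  letI : Algebra A B := φ.toAlgebra
  show LinearMap.charpoly ((ρ.ρ σ).baseChange B) = _
  rw [LinearMap.charpoly_baseChange]
  rfl

/-- Away from the level the Hecke algebra away from `S` is contained in the good one. -/
theorem heckeAlgebra_le_good {M : ℕ} [NeZero M] (S : Set ℕ) (hMS : ∀ q : ℕ, q.Prime → q ∣ M → q ∈ S) :
    CuspForm.heckeAlgebra M 2 S ≤ CuspForm.heckeAlgebra M 2 {r : ℕ | r ∣ M} := by
  refine Algebra.adjoin_le ?_
  rintro T (⟨ℓ, hℓ, hℓM, -, rfl⟩ | ⟨q, hqM, hq, hqS, rfl⟩)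
  · exact CuspForm.heckeTLin_mem_heckeAlgebra hℓ hℓM hℓM
  · exact absurd (hMS q hq hqM) hqS

/-- The inertia-fixed torsion point with nonvanishing image. -/
theorem exists_fixed_point {M : ℕ} [NeZero M] {g : CuspForm (Gamma0 M) 2}
    (hg : g.IsNormalizedEigenform) (lam : ℕ) [Fact lam.Prime]
    (hS37 : Attach.SpecializationInput M lam) (S : Finset ℕ)
    (hlamS : lam ∈ S) (hMS : ∀ q : ℕ, q.Prime → q ∣ M → q ∈ S)
    (O : Type) [CommRing O] [IsDomain O] [IsDiscreteValuationRing O]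
    [IsAdicComplete (IsLocalRing.maximalIdeal O) O] [Finite (IsLocalRing.ResidueField O)]
    [CharZero O] (hlamO : (lam : O) ∈ IsLocalRing.maximalIdeal O)
    (chig : CuspForm.heckeAlgebra M 2 (↑S : Set ℕ) →+* ℂ)
    (hchig : ∀ (ℓ : ℕ) (hℓ : ℓ.Prime) (hℓM : ¬ ℓ ∣ M) (hℓS : ℓ ∉ (↑S : Set ℕ)),
      chig (CuspForm.heckeAlgebra.T hℓ hℓM hℓS) = ModularFormClass.qCoeff g ℓ)
    (iota : chig.range →+* O) (ρ : GaloisRepAdic O)
    (hρ : ∀ (ℓ : ℕ) (hℓ : ℓ.Prime) (hℓM : ¬ ℓ ∣ M) (hℓS : ℓ ∉ (↑S : Set ℕ)),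
      ∀ A : ValuationSubring (AlgebraicClosure ℚ), A.LiesOverPrime ℓ →
        ∀ σ : AlgebraicClosure ℚ ≃ₐ[ℚ] AlgebraicClosure ℚ, A.IsFrobeniusAt σ ℓ →
          LinearMap.charpoly (ρ.ρ σ) =
            X ^ 2 - C ((iota.comp chig.rangeRestrict) (CuspForm.heckeAlgebra.T hℓ hℓM hℓS)) * X
              + C ((ℓ : O)))
    (H : Subgroup Γℚ) (hH : ∀ σ ∈ H, LinearMap.charpoly (ρ.ρ σ) = (X - 1) ^ 2)
    (t : awayHeckeAlg {r : ℕ | r ∣ M})
    (ht : ∀ ξ : CuspForm.heckeAlgebra M 2 {r : ℕ | r ∣ M} →+* ℂ,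
      (∀ (ℓ : ℕ) (hℓ : ℓ.Prime) (hℓM : ¬ ℓ ∣ M),
        ξ (CuspForm.heckeAlgebra.T hℓ hℓM hℓM) = ModularFormClass.qCoeff g ℓ) →
      ξ (awayHeckeEval M _ t) ≠ 0)
    (m : ℕ) (hm : m ≠ 0) :
    ∃ (n : ℕ) (x : JZero M), lam ^ n • x = 0 ∧ (∀ σ ∈ H, σ • x = x) ∧
      m • (letI := heckeModuleBar M; (t : HeckeAlg) • x) ≠ 0 := by
  have hlam : lam.Prime := Fact.out
  let G : Set ℕ := {r : ℕ | r ∣ M}
  haveI : Module.Finite ℤ ↥(CuspForm.heckeAlgebra M 2 G) :=
    Modular.heckeAlgebra_moduleFinite M 2 G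
  haveI : Module.Finite ℤ ↥(CuspForm.heckeAlgebra M 2 (↑S : Set ℕ)) :=
    Modular.heckeAlgebra_moduleFinite M 2 _
  obtain ⟨ξ₀, -, hξ₀, -⟩ := exists_eigenformCharacter (S := G) hg
  let ξ : ↥(CuspForm.heckeAlgebra M 2 G) →+* ℂ :=
    (integralClosure ℤ ℂ).val.toRingHom.comp ξ₀
  have hξ : ∀ (ℓ : ℕ) (hℓ : ℓ.Prime) (hℓM : ¬ ℓ ∣ M),
      ξ (CuspForm.heckeAlgebra.T hℓ hℓM hℓM) = ModularFormClass.qCoeff g ℓ :=
    fun ℓ hℓ hℓM => hξ₀ ℓ hℓ hℓM hℓM
  let i : ↥(CuspForm.heckeAlgebra M 2 (↑S : Set ℕ)) →+* ↥(CuspForm.heckeAlgebra M 2 G) :=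
    (Subalgebra.inclusion (heckeAlgebra_le_good (↑S : Set ℕ) hMS)).toRingHom
  have hcomp : ξ.comp i = chig := by
    ext ⟨x, hx⟩
    induction hx using Algebra.adjoin_induction with
    | mem y hy =>
      rcases hy with ⟨ℓ, hℓ, hℓM, hℓS, rfl⟩ | ⟨r, hrM, hr, hrS, rfl⟩
      · exact (hξ ℓ hℓ hℓM).trans (hchig ℓ hℓ hℓM hℓS).symm
      · exact absurd (hMS r hr hrM) hrS
    | algebraMap r =>
      exact ((ξ.comp i).comp (algebraMap ℤ _)).congr_fun
        (Subsingleton.elim _ (chig.comp (algebraMap ℤ _))) r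
    | add u v hu hv ihu ihv =>
      exact (map_add (ξ.comp i) ⟨u, hu⟩ ⟨v, hv⟩).trans
        ((congrArg₂ (· + ·) ihu ihv).trans (map_add chig ⟨u, hu⟩ ⟨v, hv⟩).symm)
    | mul u v hu hv ihu ihv =>
      exact (map_mul (ξ.comp i) ⟨u, hu⟩ ⟨v, hv⟩).trans
        ((congrArg₂ (· * ·) ihu ihv).trans (map_mul chig ⟨u, hu⟩ ⟨v, hv⟩).symm)
  have hiota : Function.Injective iota := by
    haveI : CharZero ↥chig.range :=
      charZero_of_injective_ringHom (algebraMap ℤ ↥chig.range).injective_int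
    haveI : Algebra.IsIntegral ℤ ↥chig.range :=
      Algebra.IsIntegral.of_surjective chig.rangeRestrict.toIntAlgHom chig.rangeRestrict_surjective
    rw [RingHom.injective_iff_ker_eq_bot]
    haveI := RingHom.ker_isPrime iota
    refine Ideal.eq_bot_of_comap_eq_bot (R := ℤ) ?_
    rw [RingHom.comap_ker]
    exact (RingHom.injective_iff_ker_eq_bot _).1 (RingHom.injective_int _)
  have hκ : RingHom.ker (iota.comp chig.rangeRestrict) = RingHom.ker (ξ.comp i) := by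
    rw [RingHom.ker_comp_of_injective _ hiota, RingHom.ker_rangeRestrict, hcomp]
  obtain ⟨O₂, _, _, _, _, _, _, φ, hφ, hφloc, χ, hχ, hχ0⟩ :=
    exists_point_extension i ξ O (iota.comp chig.rangeRestrict) hκ
  -- the attached representation over an extension
  have hcomm := FermatLib.Modular.heckeOperatorsCommuteBar M
  have hG : ∀ q : ℕ, q.Prime → q ∣ M → q ∈ G := fun q _ h => h
  have D := Attach.torsionHeckeData hcomm Attach.galois_smul_heckeAlg
    Attach.holdsNearOne_smul_jzero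
    (Attach.kummerHeckeIso_of_equiv (kummerHeckeEquiv M lam hlam)) hlam G hG
  have hquad : ∀ ℓ : ℕ, ℓ.Prime → ℓ ∉ S → ∀ A : ValuationSubring Qbar, A.LiesOverPrime ℓ →
      ∀ σ : Γℚ, A.IsFrobeniusAt σ ℓ →
        Attach.SatisfiesQuadratic lam (Attach.awayAct hcomm G) σ (awayHeckeGen G ℓ) ℓ := by
    intro ℓ hℓ hℓS A hA σ hσ x hx
    have hℓM : ¬ ℓ ∣ M := fun h => hℓS (hMS ℓ hℓ h)
    have hℓp : ¬ ℓ ∣ M * lam := fun h => (hℓ.dvd_mul.mp h).elim hℓM fun h' =>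
      hℓS ((Nat.prime_dvd_prime_iff_eq hℓ hlam).mp h' ▸ hlamS)
    have h := Attach.frobQuadratic_of_specialization hS37 ℓ hℓ hℓp A hA σ hσ x hx
    rw [Attach.awayAct_apply, coe_awayHeckeGen hℓ (show ℓ ∉ G from hℓM)]
    exact h
  have hlamO₂ : (lam : O₂) ∈ IsLocalRing.maximalIdeal O₂ := by
    haveI := hφloc
    rw [← map_natCast φ]
    exact map_nonunit φ _ hlamO
  obtain ⟨O₃, _, _, _, _, _, _, _, _, _, hinj, ρ', hcp, -, hpts⟩ :=
    Attach.exists_attached_origin (Attach.awayAct hcomm G) (awayHeckeEval M G) D S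
      (awayHeckeGen G) hquad O₂ hlamO₂ χ
  let ψ : O →+* O₃ := (algebraMap O₂ O₃).comp φ
  have hψ : IsLocalHom ψ := RingHom.isLocalHom_comp _ _
  have hcp' : ∀ τ : Γℚ,
      LinearMap.charpoly ((ρ.baseChangeAlong ψ hψ).ρ τ) = LinearMap.charpoly (ρ'.ρ τ) := by
    refine fun τ => adic_charpoly_eq_of_frobenius _ _ S (fun ℓ hℓ hℓS P hP σ hσ => ?_) τ
    have hℓM : ¬ ℓ ∣ M := fun h => hℓS (hMS ℓ hℓ h)
    have hℓS' : ℓ ∉ (↑S : Set ℕ) := fun h => hℓS (Finset.mem_coe.mp h)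
    rw [charpoly_baseChangeAlong, hρ ℓ hℓ hℓM hℓS' P hP σ hσ,
      hcp ℓ hℓ (fun h => hℓS (h ▸ hlamS)) P hP σ hσ _ (hquad ℓ hℓ hℓS P hP σ hσ)]
    simp only [Polynomial.map_add, Polynomial.map_sub, Polynomial.map_mul, Polynomial.map_pow,
      Polynomial.map_X, Polynomial.map_C, map_natCast]
    refine congrArg₂ (· + ·) (congrArg₂ (· - ·) rfl (congrArg₂ (· * ·) (congrArg C ?_) rfl)) (by simp)
    show algebraMap O₂ O₃ (φ _) = _
    rw [← hχ]
    refine congrArg _ (congrArg χ ?_)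
    refine Eq.trans ?_ (awayHeckeEval_awayHeckeGen M hℓ hℓM hℓM).symm
    exact Subtype.ext rfl
  obtain ⟨n, x, hx, hfix, hne⟩ := hpts H (fun σ hσ => by
    rw [← hcp' σ, charpoly_baseChangeAlong, hH σ hσ]
    simp) t (fun h => ht ξ hξ (hχ0 _ h)) m hm
  refine ⟨n, x, hx, hfix, ?_⟩
  rwa [Attach.awayAct_apply] at hne

/-- **Carayol**: a representation with the Frobenius polynomials of a newform is not unipotent on
inertia at a prime whose square exactly divides the level. -/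
theorem not_isUnipotentOnInertiaAt_of_vanishing (hvan : VanishingAll)
    {M : ℕ} [NeZero M] {g : CuspForm (CongruenceSubgroup.Gamma0 M) 2} (hg : g.IsNewform)
    (lam : ℕ) [Fact lam.Prime] (hS37 : Attach.SpecializationInput M lam) (S : Finset ℕ)
    (hlamS : lam ∈ S) (hMS : ∀ q : ℕ, q.Prime → q ∣ M → q ∈ S)
    (O : Type) [CommRing O] [IsDomain O] [IsDiscreteValuationRing O]
    [IsAdicComplete (IsLocalRing.maximalIdeal O) O] [Finite (IsLocalRing.ResidueField O)]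
    [CharZero O] (hlamO : (lam : O) ∈ IsLocalRing.maximalIdeal O)
    (chig : CuspForm.heckeAlgebra M 2 (↑S : Set ℕ) →+* ℂ)
    (hchig : ∀ (ℓ : ℕ) (hℓ : ℓ.Prime) (hℓM : ¬ ℓ ∣ M) (hℓS : ℓ ∉ (↑S : Set ℕ)),
      chig (CuspForm.heckeAlgebra.T hℓ hℓM hℓS) = ModularFormClass.qCoeff g ℓ)
    (iota : chig.range →+* O) (ρ : GaloisRepAdic O)
    (hρ : ∀ (ℓ : ℕ) (hℓ : ℓ.Prime) (hℓM : ¬ ℓ ∣ M) (hℓS : ℓ ∉ (↑S : Set ℕ)),
      ∀ A : ValuationSubring (AlgebraicClosure ℚ), A.LiesOverPrime ℓ →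
        ∀ σ : AlgebraicClosure ℚ ≃ₐ[ℚ] AlgebraicClosure ℚ, A.IsFrobeniusAt σ ℓ →
          LinearMap.charpoly (ρ.ρ σ) =
            X ^ 2 - C ((iota.comp chig.rangeRestrict) (CuspForm.heckeAlgebra.T hℓ hℓM hℓS)) * X
              + C ((ℓ : O)))
    (q : ℕ) (hq : q.Prime) (hqlam : q ≠ lam) (hqM : M.factorization q = 2) :
    ¬ ρ.IsUnipotentOnInertiaAt q := by
  intro huni
  have hlam : lam.Prime := Fact.out
  obtain ⟨N, rfl, hqN⟩ := exists_eq_mul_mul_of_factorization_eq_two hq hqM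
  haveI : NeZero q := ⟨hq.ne_zero⟩
  haveI : NeZero N := ⟨fun h => NeZero.ne (N * q * q) (by simp [h])⟩
  haveI : NeZero (N * q) := ⟨mul_ne_zero (NeZero.ne N) (NeZero.ne q)⟩
  have hdvd : N * q ∣ N * q * q := dvd_mul_right _ _
  have hne : N * q ≠ N * q * q := fun h => hq.ne_one (by
    have := Nat.eq_of_mul_eq_mul_left (Nat.pos_of_ne_zero (NeZero.ne (N * q)))
      ((mul_one _).trans h)
    exact this.symm)
  set G : Set ℕ := {r : ℕ | r ∣ N * q * q}
  haveI : Module.Finite ℤ ↥(CuspForm.heckeAlgebra (N * q * q) 2 G) :=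
    Modular.heckeAlgebra_moduleFinite _ 2 G
  obtain ⟨ξ₀, -, hξ₀, -⟩ := exists_eigenformCharacter (S := G) hg.1
  let ξ₁ : ↥(CuspForm.heckeAlgebra (N * q * q) 2 G) →+* ℂ :=
    (integralClosure ℤ ℂ).val.toRingHom.comp ξ₀
  obtain ⟨t, ht0, ht⟩ := s35_exists_separating hdvd (Modular.hasIntegralStructure (N * q) 2) g
    (hg.2 _ hdvd hne) ξ₁
    (fun ℓ hℓ hℓM => hξ₀ ℓ hℓ hℓM hℓM)
  -- any character with these values at the good primes is this one
  have hteq : ∀ ξ : CuspForm.heckeAlgebra (N * q * q) 2 G →+* ℂ,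
      (∀ (ℓ : ℕ) (hℓ : ℓ.Prime) (hℓM : ¬ ℓ ∣ N * q * q),
        ξ (CuspForm.heckeAlgebra.T hℓ hℓM hℓM) = ModularFormClass.qCoeff g ℓ) →
      ξ (awayHeckeEval (N * q * q) _ t) ≠ 0 := by
    intro ξ hξ
    suffices ξ = ξ₁ by rw [this]; exact ht
    ext ⟨y, hy⟩
    induction hy using Algebra.adjoin_induction with
    | mem z hz =>
      rcases hz with ⟨ℓ, hℓ, hℓM, -, rfl⟩ | ⟨r, hrM, hr, hrS, rfl⟩
      · exact (hξ ℓ hℓ hℓM).trans (hξ₀ ℓ hℓ hℓM hℓM).symm
      · exact absurd hrM hrS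
    | algebraMap r =>
      exact (ξ.comp (algebraMap ℤ _)).congr_fun
        (Subsingleton.elim _ (ξ₁.comp (algebraMap ℤ _))) r
    | add u v hu hv ihu ihv =>
      exact (map_add ξ ⟨u, hu⟩ ⟨v, hv⟩).trans
        ((congrArg₂ (· + ·) ihu ihv).trans (map_add ξ₁ ⟨u, hu⟩ ⟨v, hv⟩).symm)
    | mul u v hu hv ihu ihv =>
      exact (map_mul ξ ⟨u, hu⟩ ⟨v, hv⟩).trans
        ((congrArg₂ (· * ·) ihu ihv).trans (map_mul ξ₁ ⟨u, hu⟩ ⟨v, hv⟩).symm)
  have h₁ : N * q * 1 ∣ N * q * q := mul_dvd_mul_left _ (one_dvd q)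
  have h₂ : N * q * q ∣ N * q * q := dvd_rfl
  obtain ⟨C, hC, hvanC⟩ := hvan N q hq hqN h₁ h₂
  obtain ⟨A, hA⟩ := FermatLib.Basic.exists_liesOverPrime hq
  obtain ⟨n, x, hx, hfix, hne'⟩ := exists_fixed_point hg.1 lam hS37 S hlamS hMS O hlamO chig hchig
    iota ρ hρ (A.inertiaSubgroupIn ℚ) (fun σ hσ => huni A hA σ hσ) t hteq C hC.ne'
  letI := heckeModuleBar (N * q * q)
  refine hne' (hvanC lam hlam (Ne.symm hqlam) n A hA ((t : HeckeAlg) • x) ?_ ?_ ?_ ?_)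
  · exact (map_nsmul (DistribSMul.toAddMonoidHom (JZero (N * q * q)) (t : HeckeAlg)) _ x).symm.trans
      (by rw [hx]; exact map_zero _)
  · intro σ hσ
    rw [Attach.galois_smul_heckeAlg σ (t : HeckeAlg) x, hfix σ hσ]
  · rw [MazurP.degPush_one_hecke_smul h₁ t.2]
    exact MazurP.smul_eq_zero_of_formsHeckeEval_eq_zero ht0 (pow_ne_zero n hlam.ne_zero)
      (by rw [← map_nsmul, hx, map_zero])
  · rw [FermatLib.Carayol36.degPush_prime_hecke_smul_away hq h₂ t.2]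
    exact MazurP.smul_eq_zero_of_formsHeckeEval_eq_zero ht0 (pow_ne_zero n hlam.ne_zero)
      (by rw [← map_nsmul, hx, map_zero])

end FermatLib.Galois.Carayol36
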