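import Fermat.Agent.Galois.MazurP.DegeneracyHecke
import Fermat.Prelude.Def_CuspForm_HeckeGaloisRepDatum
import Fermat.Prelude.Def_CuspForm_Newforms
import Fermat.Prelude.Def_GaloisRep_LocalConditions

/-!
Carayol's lemma at a prime `q` whose square exactly divides the level: the vanishing statement on
the Jacobian of level `N q²`.  Its consequence for the attached representations is
`not_isUnipotentOnInertiaAt_of_vanishing` in `Carayol36.NotUnipotent`.
-/

set_option autoImplicit false

noncomputable section

open ModularCurve Polynomial

namespace FermatLib.Galois.Carayol36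

/-- An inertia-fixed torsion class of level `N q²` killed by both push-forwards to level `N q`
is killed by a constant independent of its order. -/
def Vanishing (N q : ℕ) [NeZero N] [NeZero q] : Prop :=
  ∀ (h₁ : N * q * 1 ∣ N * q * q) (h₂ : N * q * q ∣ N * q * q),
    ∃ C : ℕ, 0 < C ∧ ∀ (p : ℕ), p.Prime → p ≠ q → ∀ (n : ℕ)
      (A : ValuationSubring (AlgebraicClosure ℚ)), A.LiesOverPrime q →
      ∀ x : JZero (N * q * q), p ^ n • x = 0 →
        (∀ σ ∈ A.inertiaSubgroupIn ℚ, σ • x = x) →
        FermatLib.MazurP.degPush 1 h₁ x = 0 → FermatLib.MazurP.degPush q h₂ x = 0 → C • x = 0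

/-- The vanishing statement at every prime and every level prime to it. -/
def VanishingAll : Prop :=
  ∀ (N q : ℕ) [NeZero N] [NeZero q], q.Prime → ¬ q ∣ N → Vanishing N q

end FermatLib.Galois.Carayol36
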