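import Fermat.Agent.Galois.Carayol36.MainModular
import Fermat.Agent.Igusa.Carayol.Main
import Fermat.Agent.Igusa.Carayol.TowerModularInputs

/-!
# The vanishing on the Jacobian at every level
-/

set_option autoImplicit false

noncomputable section

namespace FermatLib.Galois.Carayol36

/-- Inertia-fixed `p`-power torsion killed by both push-forwards has bounded order. -/
theorem vanishingAll : VanishingAll :=
  vanishingAll_of_mainStatement fun N q _ _ hq hqN A hA _ hr hrN hr12 =>
    (Igusa.Carayol.modularTower N q hq hqN A hA).mainStatement
      (Igusa.Carayol.modularTower_inputs N q hq hqN A hA hr hrN hr12)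

end FermatLib.Galois.Carayol36
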